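import Fermat.Agent.DedekindPrimeIdeals.Psi

/-!
# From a continuation to the summatory function, uniformly in the field

If the Dirichlet series of `f - w`, with `0 ≤ f ≤ n₀ Λ` and `0 ≤ w ≤ 1`, continues into the region of
`L` with the bound `B (1 + t²) ^ (1/4)`, then their summatory functions agree up to
`O ((B + n₀ + 1) x exp (- c gauge_L x))`, with absolute constants.
-/

set_option autoImplicit false
set_option linter.style.haveILetI false

noncomputable section

universe u

open NumberField Module Finset Complex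
open FA.DedekindZF (height zfrC zfrC_pos one_le_height)
open FA.DedekindPIT
open scoped Real Classical ArithmeticFunction.vonMangoldt

namespace FA.EffCheb

/-- The Dirichlet series of `a` continues into the region of `L`, with a bound. -/
def Continues (L : Type*) [Field L] [NumberField L] (a : ℕ → ℝ) (B : ℝ) : Prop :=
  ∃ F : ℂ → ℂ,
    (∀ s : ℂ, 1 < s.re →
      LSeriesSummable (fun n => (a n : ℂ)) s ∧ LSeries (fun n => (a n : ℂ)) s = F s) ∧
    ∀ s : ℂ, 1 - width L s.im ≤ s.re → s.re ≤ 2 →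
      DifferentiableAt ℂ F s ∧ ‖F s‖ ≤ B * quarter s.im

theorem momentSum_sub (f w : ℕ → ℝ) (x : ℝ) :
    momentSum (fun n => f n - w n) x = momentSum f x - momentSum w x := by
  rw [momentSum, momentSum, momentSum, ← sum_sub_distrib]
  exact sum_congr rfl fun n _ => sub_mul _ _ _

/-- **The moment.** -/
theorem exists_momentSum_le : ∃ c C : ℝ, 0 < c ∧ c ≤ 1 ∧ 0 ≤ C ∧
    ∀ (L : Type u) [Field L] [NumberField L] (a : ℕ → ℝ) (B : ℝ), 0 ≤ B → Continues L a B →
      ∀ x : ℝ, 3 ≤ x → |momentSum a x| ≤ C * B * x ^ 2 * Real.exp (-(c * gauge L x)) := by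
  obtain ⟨S, hS, hshift⟩ := SiegelWalfisz.exists_norm_smoothSum_le
  have hz := zfrC_pos
  have hz' := zfrC_le
  refine ⟨zfrC / 4, 2 * S, by positivity, by linarith, by positivity,
    fun L _ _ a B hB ⟨F, hser, hreg⟩ x hx => ?_⟩
  have hx0 : 0 < x := by linarith
  have hlog : 0 ≤ Real.log x := Real.log_nonneg (by linarith)
  have hn : (1 : ℝ) ≤ finrank ℚ L := Nat.one_le_cast.2 finrank_pos
  set u := √(Real.log x / finrank ℚ L)
  have hu : 0 ≤ u := Real.sqrt_nonneg _
  set T := Real.exp u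
  have hD := one_le_gaugeD L x
  have hnu : (finrank ℚ L : ℝ) * u = √(finrank ℚ L * Real.log x) := by
    rw [show (finrank ℚ L : ℝ) * Real.log x = (finrank ℚ L : ℝ) ^ 2 * (Real.log x / finrank ℚ L) by
      field_simp, Real.sqrt_mul (sq_nonneg _), Real.sqrt_sq (by linarith)]
  have hHT : height L T ≤ gaugeD L x := (height_exp_le L hu).trans (le_of_eq (by
    rw [gaugeD, mul_add, hnu]; ring))
  have hHT0 : 0 < height L T := zero_lt_one.trans_le (one_le_height L T)
  set σ₁ := 1 - zfrC / (4 * height L T)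
  have hσ₁ : 1 / 2 ≤ σ₁ ∧ σ₁ ≤ 1 := by
    have := width_le L T
    have := width_pos L T
    simp only [σ₁, width] at *
    constructor <;> linarith
  have h := hshift (fun n => (a n : ℂ)) F x T σ₁ B hx (Real.one_le_exp hu) hσ₁.1 hσ₁.2 hB
    (fun σ hσ => (hser σ (by simpa using hσ)).1) (fun s hs => (hser s hs).2) fun σ y hσy hσ2 => by
      have him : ((σ : ℂ) + y * I).im = y := by simp
      have hre : ((σ : ℂ) + y * I).re = σ := by simp
      have := hreg ((σ : ℂ) + y * I) (by
        rw [him, hre]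
        rcases hσy with ⟨hy, hσ⟩ | hσ
        · have hm : height L y ≤ height L T := by
            refine add_le_add le_rfl (mul_le_mul_of_nonneg_left
              (Real.log_le_log (by positivity) ?_) (Nat.cast_nonneg _))
            rw [abs_of_pos (Real.exp_pos u)]
            linarith
          have hwd : zfrC / (4 * height L T) ≤ width L y :=
            div_le_div_of_nonneg_left hz.le (by have := one_le_height L y; positivity) (by linarith)
          simp only [σ₁] at hσ
          linarith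
        · linarith [width_pos L y]) (by rw [hre]; exact hσ2)
      rw [him] at this
      exact this
  have hmom : ((momentSum a x : ℝ) : ℂ) =
      (x : ℂ) * SiegelWalfisz.smoothSum (fun n => (a n : ℂ)) x := by
    rw [SiegelWalfisz.smoothSum, Finset.mul_sum, momentSum, ofReal_sum]
    refine Finset.sum_congr rfl fun n _ => ?_
    have : (x : ℂ) ≠ 0 := ofReal_ne_zero.2 hx0.ne'
    push_cast
    field_simp
  rw [← Real.norm_eq_abs, ← Complex.norm_real, hmom, norm_mul, norm_real, Real.norm_of_nonneg hx0.le]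
  refine (mul_le_mul_of_nonneg_left h hx0.le).trans ?_
  have e1 : x ^ (σ₁ - 1) ≤ Real.exp (-(zfrC / 4 * gauge L x)) := by
    rw [Real.rpow_def_of_pos hx0]
    refine Real.exp_le_exp.2 ?_
    have h9 := mul_le_mul_of_nonneg_left
      (div_le_div_of_nonneg_left hz.le (by positivity) (show 4 * height L T ≤ 4 * gaugeD L x by linarith))
      hlog
    have h10 : zfrC / 4 * gauge L x = Real.log x * (zfrC / (4 * gaugeD L x)) := by
      rw [FA.DedekindPIT.gauge]; field_simp
    simp only [σ₁]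
    linarith
  have e2 : T ^ (-(1 / 2) : ℝ) ≤ Real.exp (-(zfrC / 4 * gauge L x)) := by
    rw [← Real.exp_mul]
    refine Real.exp_le_exp.2 ?_
    have hgu : gauge L x ≤ u := by
      rw [FA.DedekindPIT.gauge, div_le_iff₀ (by linarith)]
      have hu2 : (finrank ℚ L : ℝ) * u ^ 2 = Real.log x := by
        rw [Real.sq_sqrt (by positivity)]
        field_simp
      have hge : (finrank ℚ L : ℝ) * u ≤ gaugeD L x := by
        rw [hnu, gaugeD]
        have hd : 0 ≤ Real.log (((discr L).natAbs : ℕ) : ℝ) :=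
          Real.log_nonneg (Nat.one_le_cast.2 (Int.natAbs_pos.2 (discr_ne_zero L)))
        linarith
      nlinarith [mul_le_mul_of_nonneg_left hge hu]
    have := mul_le_mul_of_nonneg_left hgu (show 0 ≤ zfrC / 4 by positivity)
    have := mul_le_mul_of_nonneg_right (show zfrC / 4 ≤ 1 / 2 by linarith) hu
    linarith
  have hp : 0 ≤ S * B * x * x := by positivity
  calc x * (S * B * x * (x ^ (σ₁ - 1) + T ^ (-(1 / 2) : ℝ)))
      = S * B * x * x * (x ^ (σ₁ - 1) + T ^ (-(1 / 2) : ℝ)) := by ring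
    _ ≤ S * B * x * x * (2 * Real.exp (-(zfrC / 4 * gauge L x))) :=
        mul_le_mul_of_nonneg_left (by linarith) hp
    _ = _ := by ring

/-- `1 ≤ x exp (- c gauge x)`. -/
theorem one_le_mul_exp_gauge (L : Type*) [Field L] [NumberField L] {c x : ℝ} (hc : c ≤ 1)
    (hx : 1 ≤ x) : 1 ≤ x * Real.exp (-(c * gauge L x)) := by
  have hx0 : 0 < x := zero_lt_one.trans_le hx
  rw [← Real.exp_log hx0, ← Real.exp_add, Real.exp_log hx0]
  refine Real.one_le_exp ?_
  have h1 := gauge_le_log L hx
  have h2 := gauge_nonneg L hx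
  nlinarith

/-- **The summatory functions.** -/
theorem exists_partialSum_sub_le : ∃ c C : ℝ, 0 < c ∧ c ≤ 1 / 8 ∧ 0 ≤ C ∧
    ∀ (L : Type u) [Field L] [NumberField L] (f w : ℕ → ℝ) (n₀ B : ℝ), 0 ≤ n₀ → 0 ≤ B →
      (∀ n, 0 ≤ f n) → (∀ n, f n ≤ n₀ * Λ n) → (∀ n, 1 ≤ n → 0 ≤ w n) → (∀ n, 1 ≤ n → w n ≤ 1) →
      Continues L (fun n => f n - w n) B → ∀ x : ℝ, 2 ≤ x →
        |partialSum f x - partialSum w x| ≤
          C * (B + n₀ + 1) * (x * Real.exp (-(c * gauge L x))) := by
  obtain ⟨a, C, ha, ha1, hC, hmom⟩ := exists_momentSum_le.{u}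
  obtain ⟨B₀, hB₀⟩ : ∃ B, B = Real.log 4 + 4 := ⟨_, rfl⟩
  have hB0 : 0 ≤ B₀ := hB₀ ▸ add_nonneg (Real.log_nonneg (by norm_num)) (by norm_num)
  refine ⟨a / 8, 16 * C + 8 + (B₀ + 1) * Real.exp 1, by positivity, by linarith, by positivity,
    fun L _ _ f w n₀ B hn₀ hB hf0 hfle hw0 hw1 hcont x hx => ?_⟩
  have hx0 : 0 < x := by linarith
  have hf : ∀ n, 1 ≤ n → 0 ≤ f n := fun n _ => hf0 n
  obtain ⟨η, hη⟩ : ∃ η, η = Real.exp (-(a / 8 * gauge L x)) := ⟨_, rfl⟩
  have hxη := one_le_mul_exp_gauge L (show a / 8 ≤ 1 by linarith) (show 1 ≤ x by linarith)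
  rw [← hη] at hxη ⊢
  have hη0 : 0 < η := hη ▸ Real.exp_pos _
  obtain ⟨P, hP⟩ : ∃ P, P = x * η := ⟨_, rfl⟩
  rw [← hP] at hxη ⊢
  have hP0 : 0 ≤ P := by linarith
  obtain ⟨H, hHdef⟩ : ∃ H, H = B + n₀ + 1 := ⟨_, rfl⟩
  rw [← hHdef]
  have hH1 : 1 ≤ H := by linarith
  have hq1 : 0 ≤ (B₀ + 1) * Real.exp 1 * H * P := by positivity
  have hq2 : 0 ≤ C * H * P := by positivity
  have hHP : P ≤ H * P := le_mul_of_one_le_left hP0 hH1
  have hW0 : 0 ≤ partialSum w x := sum_nonneg fun n hn => hw0 n (mem_Icc.1 hn).1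
  have hW1 : partialSum w x ≤ x := by
    refine (sum_le_card_nsmul _ _ 1 fun n hn => hw1 n (mem_Icc.1 hn).1).trans ?_
    rw [Nat.card_Icc, Nat.add_sub_cancel, nsmul_eq_mul, mul_one]
    exact Nat.floor_le hx0.le
  have hψ0 : 0 ≤ partialSum f x := sum_nonneg fun n _ => hf0 n
  rcases lt_or_ge x 6 with hx6 | hx6
  · have hsmall : 1 ≤ Real.exp 1 * η := by
      rw [hη, ← Real.exp_add]
      refine Real.one_le_exp ?_
      have := gauge_le_log L (x := x) (by linarith)
      have := gauge_nonneg L (x := x) (by linarith)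
      have h6 : Real.log x ≤ 5 := by linarith [Real.log_le_sub_one_of_pos hx0]
      nlinarith
    have hup : partialSum f x ≤ B₀ * H * x := by
      refine (sum_le_sum fun n _ => hfle n).trans ?_
      rw [← mul_sum]
      have hψ : ∑ n ∈ Icc 1 ⌊x⌋₊, Λ n ≤ B₀ * x := by
        refine le_of_eq_of_le ?_ (hB₀ ▸ Chebyshev.psi_le_const_mul_self hx0.le)
        rw [Chebyshev.psi]
        rfl
      refine (mul_le_mul_of_nonneg_left hψ hn₀).trans ?_
      rw [mul_comm B₀ H, mul_assoc]
      exact mul_le_mul_of_nonneg_right (by linarith) (by positivity)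
    have h5 : (B₀ + 1) * H * x ≤ (B₀ + 1) * Real.exp 1 * H * P :=
      calc (B₀ + 1) * H * x = (B₀ + 1) * H * x * 1 := (mul_one _).symm
        _ ≤ (B₀ + 1) * H * x * (Real.exp 1 * η) := mul_le_mul_of_nonneg_left hsmall (by positivity)
        _ = _ := by rw [hP]; ring
    have h6 : 0 ≤ B₀ * H * x := by positivity
    have h7 : x ≤ H * x := le_mul_of_one_le_left hx0.le hH1
    rw [abs_le]
    constructor <;> nlinarith
  have hgap : ∀ z, x / 2 ≤ z → z ≤ 2 * x →
      |momentSum f z - momentSum w z| ≤ 4 * C * H * x ^ 2 * (η * η) := fun z hz hz' => by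
    have h := hmom L _ B hB hcont z (by linarith)
    rw [momentSum_sub] at h
    refine h.trans ?_
    have he : Real.exp (-(a * gauge L z)) ≤ η * η := by
      rw [hη, ← Real.exp_add]
      refine Real.exp_le_exp.2 ?_
      have := mul_le_mul_of_nonneg_left (gauge_near (K := L) (by linarith) hz hz') ha.le
      linarith
    have hz2 : z ^ 2 ≤ 4 * x ^ 2 := by nlinarith
    calc C * B * z ^ 2 * Real.exp (-(a * gauge L z)) ≤ C * H * (4 * x ^ 2) * (η * η) := by
          gcongr
          linarith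
      _ = _ := by ring
  rcases lt_or_ge (1 / 2) η with hbig | hsm
  · have hxP : x ≤ 2 * P := by rw [hP]; nlinarith
    have hup := desmooth_up hf hw0 hw1 hx0.le hx0 (fun z h1 h2 => hgap z (by linarith) (by linarith))
    have e : 2 * (4 * C * H * x ^ 2 * (η * η)) / x = 8 * C * H * (P * η) := by
      rw [hP]; field_simp; ring
    have hη1 : η ≤ 1 := hη ▸ Real.exp_le_one_iff.2 (neg_nonpos.2
      (mul_nonneg (by positivity) (gauge_nonneg L (by linarith))))
    have : 8 * C * H * (P * η) ≤ 8 * C * H * P :=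
      mul_le_mul_of_nonneg_left (mul_le_of_le_one_right hP0 hη1) (by positivity)
    rw [e] at hup
    rw [abs_le]
    constructor <;> nlinarith
  obtain ⟨h, hh⟩ : ∃ h, h = x * η := ⟨_, rfl⟩
  have hh0 : 0 < h := hh ▸ mul_pos hx0 hη0
  have hhx : h ≤ x / 2 := by rw [hh]; nlinarith
  have e : 2 * (4 * C * H * x ^ 2 * (η * η)) / h = 8 * C * H * P := by
    rw [hh, hP]; field_simp; ring
  have hup := desmooth_up hf hw0 hw1 hx0.le hh0
    (fun z h1 h2 => hgap z (by linarith) (by linarith))
  have hdown := desmooth_down (x := x) hf hw0 hw1 hh0 (by linarith)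
    (fun z h1 h2 => hgap z (by linarith) (by linarith))
  rw [e] at hup hdown
  have hhP : h = P := by rw [hh, hP]
  rw [abs_le]
  constructor <;> nlinarith

end FA.EffCheb

end
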