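import Fermat.Agent.EffectiveChebotarev.Zeros
import Fermat.Agent.EffectiveChebotarev.Psi
import Fermat.Agent.ChebotarevError.Psi

/-!
# The series of a set of Frobenius elements in a region uniform in the extension

`|G| 1_C` is a combination of functions induced from the cyclic subgroups, and the L-series over
their fixed fields are entire with the zero-free region of `ζ_L`, save one zero `β`. So the series
of the frequencies of `C` less `share (1 - θ n ^ (β - 1))`, `|θ| ≤ 1`, continues into that region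
with the bound `O (share H ^ 4 (1 + t²) ^ (1/4))`, `H = 1 + log |d_L| + n_L log 3`.
-/

set_option autoImplicit false
set_option linter.style.haveILetI false
set_option linter.unusedSectionVars false

noncomputable section

open NumberField Module Finset Complex Filter Topology
open FA.DedekindZF (height zfrC zfrC_pos one_le_height)
open FA.DedekindPIT (width quarter IsGood goodP restC)
open FA.ArtinL (artinL artinLog fixedEquiv)
open FA.CharacterTheory (induced)
open FA.ChebError (CycDual indFn artinMangoldt share mangoldtF)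
open scoped Real Classical ComplexConjugate

namespace FA.EffCheb

section generic

/-- `height` splits off its value at `0`. -/
theorem height_le_mul_ell (L : Type*) [Field L] [NumberField L] (t : ℝ) :
    height L t ≤ height L 0 * ZeroFree.ell t := by
  have hℓ := ZeroFree.four_le_ell t
  have hlog : Real.log (|t| + 3) ≤ ZeroFree.ell t :=
    Real.log_le_log (by positivity) (by linarith)
  have hn : (0 : ℝ) ≤ finrank ℚ L := Nat.cast_nonneg _
  have hD : 0 ≤ Real.log (((discr L).natAbs : ℕ) : ℝ) :=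
    Real.log_nonneg (Nat.one_le_cast.2 (Int.natAbs_pos.2 (discr_ne_zero L)))
  have h3 : 1 ≤ Real.log (|(0 : ℝ)| + 3) := FA.DedekindZF.one_le_log 0
  rw [FA.DedekindZF.height, FA.DedekindZF.height]
  nlinarith [mul_le_mul_of_nonneg_left hlog hn, mul_le_mul_of_nonneg_left h3 hn,
    mul_nonneg hD (show 0 ≤ ZeroFree.ell t - 1 by linarith)]

theorem width_le_inv_ell (L : Type*) [Field L] [NumberField L] (t : ℝ) :
    width L t ≤ 1 / ZeroFree.ell t := by
  have h6 : ZeroFree.ell t ≤ 6 * Real.log (|t| + 3) := by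
    rw [show (6 : ℝ) * Real.log (|t| + 3) = Real.log ((|t| + 3) ^ 6) by rw [Real.log_pow]; norm_num]
    refine Real.log_le_log (by positivity) ?_
    calc |t| + 100 ≤ 34 * (|t| + 3) := by linarith [abs_nonneg t]
      _ ≤ (|t| + 3) ^ 5 * (|t| + 3) := by
          refine mul_le_mul_of_nonneg_right ((show (34 : ℝ) ≤ 3 ^ 5 by norm_num).trans ?_) (by positivity)
          exact pow_le_pow_left₀ (by norm_num) (le_add_of_nonneg_left (abs_nonneg _)) 5
      _ = _ := by ring
  have hn : (1 : ℝ) ≤ finrank ℚ L := Nat.one_le_cast.2 finrank_pos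
  have hD : 0 ≤ Real.log (((discr L).natAbs : ℕ) : ℝ) :=
    Real.log_nonneg (Nat.one_le_cast.2 (Int.natAbs_pos.2 (discr_ne_zero L)))
  have hl := le_mul_of_one_le_left (zero_le_one.trans (FA.DedekindZF.one_le_log t)) hn
  have hℓ := ZeroFree.four_le_ell t
  have hH := one_le_height L t
  rw [width, div_le_div_iff₀ (by linarith) (by linarith), one_mul]
  refine (mul_le_mul FA.DedekindPIT.zfrC_le h6 (by linarith) (by norm_num)).trans ?_
  rw [FA.DedekindZF.height]
  linarith

/-- **The real part of the coefficients continues with the same bound.** -/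
theorem continues_re {L : Type*} [Field L] [NumberField L] {a : ℕ → ℂ} {F : ℂ → ℂ} {B : ℝ}
    (hser : ∀ s : ℂ, 1 < s.re → LSeriesSummable a s ∧ LSeries a s = F s)
    (hreg : ∀ s : ℂ, 1 - width L s.im ≤ s.re → s.re ≤ 2 →
      DifferentiableAt ℂ F s ∧ ‖F s‖ ≤ B * quarter s.im) :
    Continues L (fun n => (a n).re) B := by
  refine ⟨fun s => (F s + conj (F (conj s))) / 2, fun s hs => ?_, fun s h1 h2 => ?_⟩
  · obtain ⟨h1, h2⟩ := hser s hs
    obtain ⟨h3, h4⟩ := hser (conj s) (by simpa using hs)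
    have ht : ∀ n, LSeries.term (fun n => conj (a n)) s n = conj (LSeries.term a (conj s) n) :=
      fun n => by
      rcases eq_or_ne n 0 with rfl | hn
      · simp
      rw [LSeries.term_of_ne_zero hn, LSeries.term_of_ne_zero hn, map_div₀,
        ← conj_cpow _ _ (by rw [natCast_arg]; exact Real.pi_pos.ne), conj_natCast]
    have hs' : LSeriesSummable (fun n => conj (a n)) s :=
      (Complex.summable_conj.2 h3).congr fun n => (ht n).symm
    have hv : LSeries (fun n => conj (a n)) s = conj (F (conj s)) := by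
      rw [← h4, LSeries, LSeries, Complex.conj_tsum]
      exact tsum_congr ht
    have e : (fun n => ((a n).re : ℂ)) = (2 : ℂ)⁻¹ • (a + fun n => conj (a n)) := by
      funext n
      simp [Complex.add_conj]
    show LSeriesSummable (fun n => ((a n).re : ℂ)) s ∧ _
    rw [e]
    refine ⟨(h1.add hs').smul _, ?_⟩
    rw [LSeries_smul, LSeries_add h1 hs', h2, hv]
    ring
  · obtain ⟨hd, hb⟩ := hreg s h1 h2
    have hw : width L (conj s).im = width L s.im := by
      rw [Complex.conj_im, width, width, FA.DedekindZF.height_neg]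
    obtain ⟨hd', hb'⟩ := hreg (conj s) (by rw [hw, Complex.conj_re]; exact h1)
      (by rwa [Complex.conj_re])
    have hd'' := hd'.conj_conj
    rw [Complex.conj_conj] at hd''
    refine ⟨(hd.add hd'').div_const 2, ?_⟩
    have hq : quarter (conj s).im = quarter s.im := by
      rw [Complex.conj_im, quarter, quarter, neg_sq]
    rw [hq] at hb'
    rw [norm_div, Complex.norm_ofNat, div_le_iff₀ two_pos]
    refine (norm_add_le _ _).trans ?_
    rw [Complex.norm_conj]
    linarith

end generic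

variable {K L : Type*} [Field K] [NumberField K] [Field L] [NumberField L] [Algebra K L]
variable [IsGalois K L]

/-- Over the fixed field of a cyclic subgroup the extension is abelian. -/
theorem cyc_comm (g : L ≃ₐ[K] L)
    (a b : L ≃ₐ[IntermediateField.fixedField (Subgroup.zpowers g)] L) : a * b = b * a :=
  (fixedEquiv (Subgroup.zpowers g)).injective (by
    rw [map_mul, map_mul]
    exact (IsCyclic.commGroup (α := Subgroup.zpowers g)).mul_comm _ _)

/-- A character of `⟨g⟩` as one of the Galois group over the fixed field. -/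
def liftChar (g : L ≃ₐ[K] L) (ψ : CycDual g) :
    (L ≃ₐ[IntermediateField.fixedField (Subgroup.zpowers g)] L) →* ℂˣ :=
  ψ.comp (fixedEquiv (Subgroup.zpowers g)).toMonoidHom

theorem liftChar_injective (g : L ≃ₐ[K] L) : Function.Injective (liftChar g) := fun ψ ψ' h =>
  MonoidHom.ext fun y => by
    obtain ⟨x, rfl⟩ := (fixedEquiv (Subgroup.zpowers g)).surjective y
    exact DFunLike.congr_fun h x

theorem liftChar_eq_one {g : L ≃ₐ[K] L} {ψ : CycDual g} : liftChar g ψ = 1 ↔ ψ = 1 :=
  ⟨fun h => liftChar_injective g (h.trans (MonoidHom.one_comp _).symm), fun h => by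
    rw [h, liftChar, MonoidHom.one_comp]⟩

/-- The L-series of a pair without its pole. -/
abbrev cycL (p : Σ g : L ≃ₐ[K] L, CycDual g) : ℂ → ℂ :=
  clearedL (cyc_comm p.1) (liftChar p.1 p.2)

/-- **The term of a pair.** -/
theorem LSeries_induced_eq (p : Σ g : L ≃ₐ[K] L, CycDual g) {β : ℝ} (hβ : β ≤ 1) {δ : ℕ}
    {gd : ℂ → ℂ} (hgd : Differentiable ℂ gd) (hfac : ∀ z, cycL p z = (z - β) ^ δ * gd z) {s : ℂ}
    (hs : 1 < s.re) :
    LSeries (artinMangoldt (induced (Subgroup.zpowers p.1) fun y => (p.2 y : ℂ))) s =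
      -(deriv gd s / gd s) + (if p.2 = 1 then 1 else 0) * (s - 1)⁻¹ - (δ : ℂ) * (s - β)⁻¹ := by
  set φ : (L ≃ₐ[K] L) → ℂ := induced (Subgroup.zpowers p.1) fun y => (p.2 y : ℂ)
  set k := poleOrd (liftChar p.1 p.2)
  have hexp : ∀ z : ℂ, 1 < z.re →
      (z - β) ^ δ * gd z = (z - 1) ^ k * Complex.exp (artinLog φ z) := fun z hz => by
    rw [← hfac z]
    show clearedL _ _ z = _
    rw [(isCleared_clearedL _ _).series z hz]
    congr 1
    show _ = artinL φ z
    rw [show φ = _ from (FA.ArtinL.inducedFn_fixedField (Subgroup.zpowers p.1)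
      fun y => (p.2 y : ℂ)).symm, FA.ArtinL.artinL_induced hz fun g x => by simp [map_mul, map_inv]]
    rfl
  have hd := (FA.ChebError.hasDerivAt_artinLog φ hs).2
  have hsβ : s - β ≠ 0 := fun h => by
    have := congrArg Complex.re h
    simp at this
    linarith
  have hs1 : s - 1 ≠ 0 := FA.PrimeIdeal.sub_one_ne_zero hs
  have he0 : (s - 1) ^ k * Complex.exp (artinLog φ s) ≠ 0 :=
    mul_ne_zero (pow_ne_zero _ hs1) (Complex.exp_ne_zero _)
  have hg0 : gd s ≠ 0 := fun h => he0 (by rw [← hexp s hs, h, mul_zero])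
  have heq : logDeriv (fun z => (z - (β : ℂ)) ^ δ * gd z) s =
      logDeriv (fun z => (z - 1) ^ k * Complex.exp (artinLog φ z)) s := by
    refine (logDeriv_congr_nhds ?_).eq_of_nhds
    filter_upwards [(isOpen_lt continuous_const Complex.continuous_re).mem_nhds hs] with z hz
    exact hexp z hz
  have hsub : ∀ c : ℂ, logDeriv (fun z => z - c) s = (s - c)⁻¹ := fun c => by
    rw [logDeriv_apply, ((hasDerivAt_id' s).sub_const c).deriv, one_div]
  rw [logDeriv_mul (f := fun z => (z - (β : ℂ)) ^ δ) s (pow_ne_zero _ hsβ) hg0 (by fun_prop) (hgd s),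
    logDeriv_mul (f := fun z => (z - 1) ^ k) (g := fun z => Complex.exp (artinLog φ z)) s
      (pow_ne_zero _ hs1) (Complex.exp_ne_zero _) (by fun_prop) hd.cexp.differentiableAt,
    logDeriv_fun_pow (by fun_prop), logDeriv_fun_pow (by fun_prop), hsub, hsub,
    logDeriv_apply (fun z => Complex.exp (artinLog φ z)), hd.cexp.deriv,
    mul_div_cancel_left₀ _ (Complex.exp_ne_zero _), logDeriv_apply] at heq
  have hk : (k : ℂ) = if p.2 = 1 then 1 else 0 := by
    simp only [k, poleOrd, liftChar_eq_one]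
    split_ifs <;> simp
  rw [← hk]
  linear_combination heq

/-- The weights of the pairs. -/
def pairW (p : Σ g : L ≃ₐ[K] L, CycDual g) : ℂ :=
  (Nat.card (L ≃ₐ[K] L) : ℂ)⁻¹ * ((p.2 ⟨p.1, Subgroup.mem_zpowers p.1⟩⁻¹ : ℂˣ) : ℂ)

theorem norm_pairW (p : Σ g : L ≃ₐ[K] L, CycDual g) :
    ‖pairW p‖ = (Nat.card (L ≃ₐ[K] L) : ℝ)⁻¹ := by
  rw [pairW, norm_mul, norm_inv, Complex.norm_natCast,
    Complex.norm_eq_one_of_pow_eq_one (n := Nat.card (Subgroup.zpowers p.1)) (by
      rw [← Units.val_pow_eq_pow_val, ← map_pow, pow_card_eq_one', map_one, Units.val_one])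
      Nat.card_pos.ne', mul_one]

/-- The pairs of `C`. -/
def pairs (C : Set (L ≃ₐ[K] L)) : Finset (Σ g : L ≃ₐ[K] L, CycDual g) :=
  C.toFinset.sigma fun g => (univ : Finset (CycDual g))

theorem share_eq (C : Set (L ≃ₐ[K] L)) :
    (share C : ℝ) = C.toFinset.card * (Nat.card (L ≃ₐ[K] L) : ℝ)⁻¹ := by
  rw [share, Nat.card_coe_set_eq, Set.ncard_eq_toFinset_card', div_eq_mul_inv]

/-- **The series of the frequencies.** -/
theorem LSeries_mangoldtF {C : Set (L ≃ₐ[K] L)} (hC : ∀ g ∈ C, ∀ x, x * g * x⁻¹ ∈ C) {β : ℝ}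
    (hβ : β ≤ 1) {δ : (Σ g : L ≃ₐ[K] L, CycDual g) → ℕ}
    {gd : (Σ g : L ≃ₐ[K] L, CycDual g) → ℂ → ℂ} (hgd : ∀ p, Differentiable ℂ (gd p))
    (hfac : ∀ p z, cycL p z = (z - β) ^ δ p * gd p z) {s : ℂ} (hs : 1 < s.re) :
    LSeriesSummable (fun n => (mangoldtF C n : ℂ)) s ∧
      LSeries (fun n => (mangoldtF C n : ℂ)) s =
        (∑ p ∈ pairs C, pairW p * -(deriv (gd p) s / gd p s)) + (share C : ℂ) * (s - 1)⁻¹ -
          (∑ p ∈ pairs C, pairW p * δ p) * (s - β)⁻¹ := by
  set φ : (Σ g : L ≃ₐ[K] L, CycDual g) → (L ≃ₐ[K] L) → ℂ := fun p =>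
    induced (Subgroup.zpowers p.1) fun y => (p.2 y : ℂ)
  have hlog : ∀ z : ℂ, 1 < z.re →
      artinLog (indFn C) z = ∑ p ∈ pairs C, pairW p * artinLog (φ p) z := fun z hz => by
    have key : ∀ t : Finset (Σ g : L ≃ₐ[K] L, CycDual g),
        artinLog (∑ p ∈ t, pairW p • φ p) z = ∑ p ∈ t, pairW p * artinLog (φ p) z := fun t => by
      induction t using Finset.induction_on with
      | empty => simp [artinLog, FA.ArtinL.term, FA.ArtinL.coef, FA.ArtinL.localMean]
      | insert q t hq ih =>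
        rw [Finset.sum_insert hq, Finset.sum_insert hq, FA.ArtinL.artinLog_add hz,
          FA.ArtinL.artinLog_smul, ih]
    rw [← key (pairs C), FA.ChebError.indFn_eq hC]
    rfl
  have hd : HasDerivAt (artinLog (indFn C))
      (∑ p ∈ pairs C, pairW p * -LSeries (artinMangoldt (φ p)) s) s :=
    (HasDerivAt.fun_sum fun p _ =>
      ((FA.ChebError.hasDerivAt_artinLog (φ p) hs).2.const_mul (pairW p))).congr_of_eventuallyEq (by
        filter_upwards [(isOpen_lt continuous_const Complex.continuous_re).mem_nhds hs] with z hz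
        exact hlog z hz)
  obtain ⟨hsum, hd'⟩ := FA.ChebError.hasDerivAt_artinLog (indFn C) hs
  have hval := hd'.unique hd
  have e : (fun n => (mangoldtF C n : ℂ)) = artinMangoldt (indFn C) :=
    funext fun n => (FA.ChebError.artinMangoldt_indFn C n).symm
  have hres : ∑ p ∈ pairs C, pairW p * (if p.2 = 1 then 1 else 0) = (share C : ℂ) := by
    have e1 : ∀ g : L ≃ₐ[K] L, ∑ ψ : CycDual g, pairW ⟨g, ψ⟩ * (if ψ = 1 then 1 else 0) =
        (Nat.card (L ≃ₐ[K] L) : ℂ)⁻¹ := fun g => by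
      rw [Finset.sum_eq_single (1 : CycDual g) (fun ψ _ hne => by rw [if_neg hne, mul_zero])
        fun hn => absurd (Finset.mem_univ _) hn, if_pos rfl, mul_one]
      simp only [pairW, MonoidHom.one_apply, Units.val_one, mul_one]
    rw [pairs, Finset.sum_sigma, Finset.sum_congr rfl fun g _ => e1 g, Finset.sum_const,
      nsmul_eq_mul, share_eq]
    push_cast
    rfl
  rw [e]
  refine ⟨hsum, ?_⟩
  rw [← neg_neg (LSeries (artinMangoldt (indFn C)) s), hval, ← Finset.sum_neg_distrib,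
    Finset.sum_congr rfl fun p _ => show -(pairW p * -LSeries (artinMangoldt (φ p)) s) =
      pairW p * -(deriv (gd p) s / gd p s) + pairW p * (if p.2 = 1 then 1 else 0) * (s - 1)⁻¹ -
        pairW p * δ p * (s - β)⁻¹ by
      rw [show LSeries (artinMangoldt (φ p)) s = _ from
        LSeries_induced_eq p hβ (hgd p) (hfac p) hs]
      ring,
    Finset.sum_sub_distrib, Finset.sum_add_distrib, ← Finset.sum_mul, ← Finset.sum_mul, hres]

/-- The constant of the region. -/
def regionC : ℝ := FA.DedekindPIT.derivB goodP * FA.DedekindPIT.ell_cube_le.choose + restC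

theorem regionC_nonneg : 0 ≤ regionC :=
  add_nonneg (mul_nonneg (FA.DedekindPIT.derivB_nonneg FA.DedekindPIT.goodP_nonneg)
    (zero_le_one.trans FA.DedekindPIT.ell_cube_le.choose_spec.1)) FA.DedekindPIT.restC_nonneg

theorem card_le_height : (Nat.card (L ≃ₐ[K] L) : ℝ) ≤ height L 0 := by
  refine le_trans ?_ (FA.DedekindZF.finrank_le_height L 0)
  rw [IsGalois.card_aut_eq_finrank, Nat.cast_le, ← Module.finrank_mul_finrank ℚ K L]
  exact Nat.le_mul_of_pos_left _ Module.finrank_pos

theorem share_pos {C : Set (L ≃ₐ[K] L)} (hne : C.Nonempty) : 0 < share C := by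
  rw [share_eq]
  exact mul_pos (Nat.cast_pos.2 (Finset.card_pos.2 (Set.toFinset_nonempty.2 hne)))
    (inv_pos.2 (Nat.cast_pos.2 Nat.card_pos))

/-- **The continuation.** -/
theorem continues_core {C : Set (L ≃ₐ[K] L)} (hC : ∀ g ∈ C, ∀ x, x * g * x⁻¹ ∈ C)
    (hne : C.Nonempty) {β : ℝ} (hβ : β ≤ 1) {δ : (Σ g : L ≃ₐ[K] L, CycDual g) → ℕ}
    (hδ : ∀ g, ∑ ψ : CycDual g, δ ⟨g, ψ⟩ ≤ 1)
    {gd : (Σ g : L ≃ₐ[K] L, CycDual g) → ℂ → ℂ} (hgood : ∀ p, IsGood L (gd p) goodP)
    (hfac : ∀ p z, cycL p z = (z - β) ^ δ p * gd p z) :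
    ∃ θ : ℝ, |θ| ≤ 1 ∧ ((∀ p, δ p = 0) → θ = 0) ∧
      Continues L (fun n => mangoldtF C n / (2 * share C) - (1 - θ * (n : ℝ) ^ (β - 1)) / 2)
        (regionC * height L 0 ^ 4) := by
  obtain ⟨σ, hσ⟩ : ∃ σ, σ = share C := ⟨_, rfl⟩
  have hσ0 : 0 < σ := hσ ▸ share_pos hne
  have hσc : (σ : ℂ) ≠ 0 := Complex.ofReal_ne_zero.2 hσ0.ne'
  set κ : ℂ := ∑ p ∈ pairs C, pairW p * δ p with hκdef
  have hκ : ‖κ‖ ≤ σ := by
    rw [hκdef, hσ, share_eq, ← nsmul_eq_mul, ← Finset.sum_const, pairs, Finset.sum_sigma]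
    refine (norm_sum_le _ _).trans (Finset.sum_le_sum fun g _ => (norm_sum_le _ _).trans ?_)
    simp only [norm_mul, norm_pairW, Complex.norm_natCast, ← Finset.mul_sum]
    refine mul_le_of_le_one_right (by positivity) ?_
    exact_mod_cast hδ g
  refine ⟨κ.re / σ, ?_, fun h0 => ?_, ?_⟩
  · rw [abs_div, abs_of_pos hσ0, div_le_one hσ0]
    exact (Complex.abs_re_le_norm κ).trans hκ
  · simp [hκdef, h0]
  set a : ℕ → ℂ := fun n =>
    ((mangoldtF C n : ℂ) - σ + κ * (((n : ℝ) ^ (β - 1) : ℝ) : ℂ)) / (2 * σ) with hadef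
  set F : ℂ → ℂ := fun s => ((∑ p ∈ pairs C, pairW p * -(deriv (gd p) s / gd p s)) -
    (σ : ℂ) * riemannZeta₀ s + κ * riemannZeta₀ (s + 1 - β)) / (2 * σ)
  have ha : (fun n => mangoldtF C n / (2 * share C) - (1 - κ.re / σ * (n : ℝ) ^ (β - 1)) / 2) =
      fun n => (a n).re := by
    funext n
    simp only [hadef, ← hσ]
    rw [show (2 : ℂ) * (σ : ℂ) = ((2 * σ : ℝ) : ℂ) by push_cast; ring, Complex.div_ofReal_re]
    simp only [Complex.add_re, Complex.sub_re, Complex.mul_re, Complex.ofReal_re,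
      Complex.ofReal_im, mul_zero, sub_zero]
    field_simp
    ring
  rw [ha]
  refine continues_re (F := F) (fun s hs => ?_) fun s h1 h2 => ?_
  · obtain ⟨hf, hfv⟩ := LSeries_mangoldtF hC hβ (fun p => (hgood p).diff) hfac hs
    have ho := LSeriesSummable_one_iff.2 hs
    have hs' : 1 < (s + 1 - β).re := by simp; linarith
    set b : ℕ → ℂ := fun n => (((n : ℝ) ^ (β - 1) : ℝ) : ℂ) with hb'
    have hb : ∀ n, LSeries.term b s n = LSeries.term (1 : ℕ → ℂ) (s + 1 - β) n := fun n => by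
      rcases eq_or_ne n 0 with rfl | hn
      · simp
      rw [LSeries.term_of_ne_zero hn, LSeries.term_of_ne_zero hn]
      simp only [hb', Pi.one_apply, ofReal_cpow (Nat.cast_nonneg n), ofReal_natCast, ofReal_sub,
        ofReal_one]
      rw [show s + 1 - (β : ℂ) = s - ((β : ℂ) - 1) by ring, cpow_sub s _ (Nat.cast_ne_zero.2 hn)]
      field_simp
    have hbs : LSeriesSummable b s := by
      rw [LSeriesSummable, funext hb]
      exact LSeriesSummable_one_iff.2 hs'
    have hbv : LSeries b s = LSeries (1 : ℕ → ℂ) (s + 1 - β) := tsum_congr hb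
    have e : a = (2 * (σ : ℂ))⁻¹ • ((fun n => (mangoldtF C n : ℂ)) - (σ : ℂ) • (1 : ℕ → ℂ) + κ • b) := by
      funext n
      simp [hadef, hb', div_eq_inv_mul]
    rw [e]
    refine ⟨((hf.sub (ho.smul _)).add (hbs.smul _)).smul _, ?_⟩
    rw [LSeries_smul, LSeries_add (hf.sub (ho.smul _)) (hbs.smul _),
      LSeries_sub hf (ho.smul _), LSeries_smul, LSeries_smul, hfv, hbv,
      FA.DedekindPIT.LSeries_one hs, FA.DedekindPIT.LSeries_one hs', ← hκdef, ← hσ,
      show s + 1 - (β : ℂ) - 1 = s - β by ring]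
    simp only [F]
    ring
  have hw := width_le_inv_ell L s.im
  have hH := one_le_height L 0
  have hne' : ∀ p, gd p s ≠ 0 := fun p => (hgood p).ne_zero s (le_trans (by
    have := FA.DedekindPIT.width_pos L s.im
    have e : zfrC / height L s.im = 4 * width L s.im := by rw [width]; field_simp
    linarith) h1)
  refine ⟨((DifferentiableAt.fun_sum fun p _ =>
    ((((((hgood p).diff.differentiableOn (s := Set.univ)).deriv isOpen_univ).differentiableAt
      Filter.univ_mem).div ((hgood p).diff s) (hne' p)).neg.const_mul _)).sub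
    ((differentiable_riemannZeta₀ s).const_mul _)).add
    (((differentiable_riemannZeta₀ _).comp s ((differentiableAt_id.add_const 1).sub_const _)).const_mul _)
    |>.div_const _, ?_⟩
  obtain ⟨q, hq⟩ : ∃ q, q = quarter s.im := ⟨_, rfl⟩
  have hq0 : 0 ≤ q := hq ▸ zero_le_one.trans (FA.DedekindPIT.one_le_quarter _)
  obtain ⟨T, hT⟩ : ∃ T, T = FA.DedekindPIT.derivB goodP *
      (height L 0 ^ 3 * (FA.DedekindPIT.ell_cube_le.choose * q)) := ⟨_, rfl⟩
  have hT0 : 0 ≤ T := hT ▸ mul_nonneg (FA.DedekindPIT.derivB_nonneg FA.DedekindPIT.goodP_nonneg)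
    (mul_nonneg (by positivity)
      (mul_nonneg (zero_le_one.trans FA.DedekindPIT.ell_cube_le.choose_spec.1) hq0))
  have hcard : ((pairs C).card : ℝ) ≤ C.toFinset.card * Nat.card (L ≃ₐ[K] L) := by
    rw [pairs, Finset.card_sigma, ← Nat.cast_mul, Nat.cast_le]
    refine Finset.sum_le_card_nsmul _ _ _ fun g _ => ?_
    have h := FA.ChebError.sum_cycDual g 1
    simp only [map_one, Units.val_one, Finset.sum_const, nsmul_eq_mul, mul_one, if_true] at h
    rw [Nat.cast_injective h]
    exact Subgroup.card_le_card_group _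
  have hsum : ‖∑ p ∈ pairs C, pairW p * -(deriv (gd p) s / gd p s)‖ ≤ σ * (height L 0 * T) := by
    refine (norm_sum_le _ _).trans ((Finset.sum_le_card_nsmul _ _
      ((Nat.card (L ≃ₐ[K] L) : ℝ)⁻¹ * T) fun p _ => ?_).trans ?_)
    · rw [norm_mul, norm_pairW, norm_neg, hT]
      refine mul_le_mul_of_nonneg_left (((hgood p).norm_logDeriv_le FA.DedekindPIT.goodP_nonneg h1
        h2).trans (mul_le_mul_of_nonneg_left ?_
          (FA.DedekindPIT.derivB_nonneg FA.DedekindPIT.goodP_nonneg))) (by positivity)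
      refine (pow_le_pow_left₀ (zero_le_one.trans (one_le_height L _))
        (height_le_mul_ell L _) 3).trans ?_
      rw [mul_pow]
      exact mul_le_mul_of_nonneg_left (hq ▸ FA.DedekindPIT.ell_cube_le.choose_spec.2 _) (by positivity)
    rw [nsmul_eq_mul]
    refine (mul_le_mul_of_nonneg_right hcard (by positivity)).trans ?_
    rw [hσ, share_eq]
    calc (C.toFinset.card : ℝ) * Nat.card (L ≃ₐ[K] L) * ((Nat.card (L ≃ₐ[K] L) : ℝ)⁻¹ * T)
        = C.toFinset.card * (Nat.card (L ≃ₐ[K] L) : ℝ)⁻¹ * (Nat.card (L ≃ₐ[K] L) * T) := by ring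
      _ ≤ _ := mul_le_mul_of_nonneg_left (mul_le_mul_of_nonneg_right card_le_height hT0)
          (by positivity)
  have hs1 : 1 - 1 / ZeroFree.ell s.im ≤ s.re := by linarith
  have him : (s + 1 - β).im = s.im := by simp
  have hs2 : 1 - 1 / ZeroFree.ell (s + 1 - β).im ≤ (s + 1 - β).re := by
    rw [him]
    simp only [sub_re, add_re, one_re, ofReal_re]
    linarith
  have hz1 := FA.DedekindPIT.norm_zeta₀_le_restC hs1
  have hz2 := FA.DedekindPIT.norm_zeta₀_le_restC hs2
  rw [him] at hz2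
  rw [← hq] at hz1 hz2 ⊢
  have hR := FA.DedekindPIT.restC_nonneg
  rw [show ‖F s‖ = _ from norm_div _ _, norm_mul, Complex.norm_ofNat, Complex.norm_real,
    Real.norm_of_nonneg hσ0.le, div_le_iff₀ (by linarith)]
  refine (norm_add_le _ _).trans ((add_le_add (norm_sub_le _ _) le_rfl).trans ?_)
  rw [norm_mul, norm_mul, Complex.norm_real, Real.norm_of_nonneg hσ0.le]
  have e1 := mul_le_mul_of_nonneg_left hz1 hσ0.le
  have e2 := mul_le_mul hκ hz2 (norm_nonneg _) hσ0.le
  have e3 : σ * (restC * q) ≤ σ * (restC * height L 0 ^ 4 * q) :=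
    mul_le_mul_of_nonneg_left
      (mul_le_mul_of_nonneg_right (le_mul_of_one_le_right hR (one_le_pow₀ hH)) hq0) hσ0.le
  have e4 : 0 ≤ σ * (height L 0 * T) := by positivity
  have e5 : 0 ≤ σ * (restC * height L 0 ^ 4 * q) := by positivity
  refine le_trans (add_le_add (add_le_add hsum e1) e2) ?_
  rw [regionC, add_mul, add_mul, hT] at *
  linarith

variable {E : ℂ → ℂ} (hE : Differentiable ℂ E)
  (hEL : ∀ s : ℂ, 1 < s.re → E s = (s - 1) * dedekindZeta L s)

include hE hEL in
/-- **Without an exceptional zero.** -/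
theorem continues_plain {C : Set (L ≃ₐ[K] L)} (hC : ∀ g ∈ C, ∀ x, x * g * x⁻¹ ∈ C)
    (hne : C.Nonempty) (hno : ∀ β : ℝ, 1 - zfrC / height L 0 ≤ β → E (β : ℂ) ≠ 0) :
    Continues L (fun n => mangoldtF C n / (2 * share C) - 1 / 2) (regionC * height L 0 ^ 4) := by
  have hno' : ∀ z : ℂ, 1 - zfrC / height L z.im ≤ z.re → E z ≠ 0 := fun z hz h0 => by
    obtain ⟨him, -, -⟩ := FA.DedekindZF.zero_free hE hEL h0 hz
    refine hno z.re (by rwa [him] at hz) ?_
    rwa [show ((z.re : ℝ) : ℂ) = z from Complex.ext rfl (by simpa using him.symm)]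
  obtain ⟨θ, -, hθ0, h⟩ := continues_core hC hne (β := 1) le_rfl (δ := fun _ => 0)
    (fun g => by simp) (gd := cycL)
    (fun p => isGood_clearedL (cyc_comm p.1) hE hEL hno' _) (fun p z => by simp)
  simpa [hθ0 fun _ => rfl] using h

include hE hEL in
/-- **With the exceptional zero.** -/
theorem exists_continues_exceptional {C : Set (L ≃ₐ[K] L)} (hC : ∀ g ∈ C, ∀ x, x * g * x⁻¹ ∈ C)
    (hne : C.Nonempty) {β : ℝ} (hβ : 1 - zfrC / height L 0 ≤ β) (h0 : E (β : ℂ) = 0) :
    ∃ θ : ℝ, |θ| ≤ 1 ∧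
      Continues L (fun n => mangoldtF C n / (2 * share C) - (1 - θ * (n : ℝ) ^ (β - 1)) / 2)
        (regionC * height L 0 ^ 4) := by
  have hβ1 : β ≤ 1 := not_lt.1 fun hlt =>
    FA.DedekindZF.cleared_ne_zero hE hEL (by simpa using hlt.le) h0
  choose gd hgood hfac using fun p : (Σ g : L ≃ₐ[K] L, CycDual g) =>
    exists_isGood_exceptional (cyc_comm p.1) hE hEL hβ h0 (liftChar p.1 p.2)
  have hδ : ∀ g : L ≃ₐ[K] L,
      ∑ ψ : CycDual g, excInd (cyc_comm g) β (liftChar g ψ) ≤ 1 := fun g => by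
    haveI := FA.ArtinFE.finite_linear (cyc_comm g)
    letI := Fintype.ofFinite
      ((L ≃ₐ[IntermediateField.fixedField (Subgroup.zpowers g)] L) →* ℂˣ)
    rw [← (sum_excInd (cyc_comm g) hE hEL hβ h0).1, ← Finset.sum_image (s := univ)
      (f := excInd (cyc_comm g) β) (g := liftChar g) fun a _ b _ e => liftChar_injective g e]
    exact Finset.sum_le_sum_of_subset (Finset.subset_univ _)
  obtain ⟨θ, hθ, -, h⟩ := continues_core hC hne hβ1
    (δ := fun p => excInd (cyc_comm p.1) β (liftChar p.1 p.2)) hδ hgood hfac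
  exact ⟨θ, hθ, h⟩

end FA.EffCheb

end
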