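import Fermat.Agent.EffectiveChebotarev.Count
import Fermat.Agent.DedekindPrimeIdeals.Exceptional
import Fermat.Agent.Root.SummaryEffectiveChebotarev

/-!
# Unramified primes with Frobenius in a class, effectively

For `L` Galois over `ℚ` the exceptional zero keeps its distance from `1`, so the main term of
Chebotarev's theorem is at least `σ exp (- 9 S) x` and wins from `log x ≥ A n_L S ^ 2` on,
`S = 1 + log |d_L| + 2 n_L`.
-/

set_option autoImplicit false
set_option linter.style.haveILetI false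
set_option linter.unusedSectionVars false

noncomputable section

universe u v

open NumberField IsDedekindDomain Module Finset
open FA.DedekindZF (height zfrC zfrC_pos one_le_height)
open FA.DedekindPIT (partialSum gauge sizeL three_le_sizeL)
open FA.ChebError (share mangoldtF setLog)
open FA.NaturalChebotarev (countIn someFrobSet finite_someFrobSet_diff)
open FA.Chebotarev (strictFrobSet)
open scoped Real Classical

namespace FA.EffCheb

section

variable {K L : Type*} [Field K] [NumberField K] [Field L] [NumberField L] [Algebra K L]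
variable [IsGalois K L]

variable (K L) in
/-- The primes of `K` containing `d_L`. -/
def discSet : Set (HeightOneSpectrum (𝓞 K)) := {v | ((discr L : ℤ) : 𝓞 K) ∈ v.asIdeal}

/-- The unramified primes with Frobenius in `C`. -/
def goodFrobSet (C : Set (L ≃ₐ[K] L)) : Set (HeightOneSpectrum (𝓞 K)) :=
  someFrobSet K L C \ discSet K L

/-- Away from `d_L` every Frobenius element is in `C`. -/
theorem goodFrobSet_subset_strict {C : Set (L ≃ₐ[K] L)} (hC : ∀ g ∈ C, ∀ x, x * g * x⁻¹ ∈ C) :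
    goodFrobSet C ⊆ strictFrobSet K L C := fun v hv => by
  by_contra hs
  obtain ⟨Q, -, hQv, hQd⟩ := exists_dvd_different hC ⟨hv.1, hs⟩
  refine hv.2 ?_
  show ((discr L : ℤ) : 𝓞 K) ∈ v.asIdeal
  rw [← hQv, Ideal.mem_comap, map_intCast]
  have h1 : Ideal.absNorm Q ∣ (discr L).natAbs := (map_dvd Ideal.absNorm hQd).trans
    (Dvd.intro _ (natAbs_discr_eq_absNorm_differentIdeal_mul_natAbs_discr_pow K (𝓞 K) L (𝓞 L)).symm)
  obtain ⟨c, hc⟩ := (Int.natCast_dvd.2 h1 : (Ideal.absNorm Q : ℤ) ∣ discr L)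
  rw [hc, Int.cast_mul, Int.cast_natCast]
  exact Q.mul_mem_right _ (Ideal.absNorm_mem Q)

/-- The primes containing a nonzero integer `d` weigh at most `n_K log |d|`. -/
theorem partialSum_setLog_dvd_le {d : ℤ} (hd : d ≠ 0) (x : ℝ) :
    partialSum (setLog {v : HeightOneSpectrum (𝓞 K) | (d : 𝓞 K) ∈ v.asIdeal}) x ≤
      finrank ℚ K * Real.log (d.natAbs : ℝ) := by
  rw [FA.ChebError.partialSum_setLog, FA.Hecke.wSum, ← Finset.sum_filter]
  set T := (FA.Hecke.primesLE K ⌊x⌋₊).filter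
    (· ∈ {v : HeightOneSpectrum (𝓞 K) | (d : 𝓞 K) ∈ v.asIdeal})
  have hinj : Set.InjOn (fun v : HeightOneSpectrum (𝓞 K) => v.asIdeal) T :=
    fun a _ b _ e => HeightOneSpectrum.ext e
  have hdvd : ∏ P ∈ T.image (fun v => v.asIdeal), P ∣ Ideal.span {((d : ℤ) : 𝓞 K)} :=
    Finset.prod_primes_dvd _ (fun P hP => by
      obtain ⟨v, -, rfl⟩ := Finset.mem_image.1 hP
      exact v.prime) fun P hP => by
      obtain ⟨v, hv, rfl⟩ := Finset.mem_image.1 hP
      exact Ideal.dvd_span_singleton.2 (Finset.mem_filter.1 hv).2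
  rw [Finset.prod_image hinj] at hdvd
  have h1 := map_dvd Ideal.absNorm hdvd
  have h2 : Algebra.norm ℤ ((d : ℤ) : 𝓞 K) = d ^ finrank ℚ K := by
    rw [← NumberField.RingOfIntegers.rank K]
    exact Algebra.norm_algebraMap d
  rw [map_prod, Ideal.absNorm_span_singleton, h2, Int.natAbs_pow] at h1
  have hpos : ∀ v ∈ T, ((Ideal.absNorm v.asIdeal : ℕ) : ℝ) ≠ 0 := fun v _ => by
    have := FA.Ext.two_le_absNorm v
    positivity
  rw [← Real.log_prod hpos, ← Real.log_pow]
  refine Real.log_le_log (Finset.prod_pos fun v hv => ?_) ?_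
  · exact lt_of_le_of_ne (Nat.cast_nonneg _) (hpos v hv).symm
  · exact_mod_cast Nat.le_of_dvd (pow_pos (Int.natAbs_pos.2 hd) _) h1

/-- The primes containing `d_L` weigh at most `n_K log |d_L|`. -/
theorem partialSum_setLog_disc_le (x : ℝ) :
    partialSum (setLog (discSet K L)) x ≤ finrank ℚ K * Real.log ((discr L).natAbs : ℝ) :=
  partialSum_setLog_dvd_le (discr_ne_zero L) x

/-- The primes of `S` weigh at most those of `S \ T` and those of `T`. -/
theorem partialSum_setLog_diff_ge (S T : Set (HeightOneSpectrum (𝓞 K))) (x : ℝ) :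
    partialSum (setLog S) x ≤ partialSum (setLog (S \ T)) x + partialSum (setLog T) x := by
  simp only [FA.ChebError.partialSum_setLog, FA.Hecke.wSum, ← Finset.sum_add_distrib]
  refine Finset.sum_le_sum fun v _ => ?_
  have := Real.log_natCast_nonneg (Ideal.absNorm v.asIdeal)
  by_cases h1 : v ∈ T <;> by_cases h2 : v ∈ S <;> simp [h1, h2, this]

theorem partialSum_good_ge (C : Set (L ≃ₐ[K] L)) (x : ℝ) :
    partialSum (setLog (someFrobSet K L C)) x ≤
      partialSum (setLog (goodFrobSet C)) x + partialSum (setLog (discSet K L)) x :=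
  partialSum_setLog_diff_ge _ _ x

theorem partialSum_setLog_le (S : Set (HeightOneSpectrum (𝓞 K))) (x : ℝ) :
    partialSum (setLog S) x ≤ countIn S x * Real.log x := by
  rw [FA.ChebError.partialSum_setLog, FA.Hecke.wSum, countIn, ← Finset.sum_filter]
  refine (Finset.sum_le_card_nsmul _ _ _ fun v hv => ?_).trans_eq (nsmul_eq_mul _ _)
  have h2 := FA.Ext.two_le_absNorm v
  have hv' := FA.Hecke.mem_primesLE.1 (Finset.mem_filter.1 hv).1
  have hx : (0 : ℝ) ≤ x := by
    by_contra h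
    rw [Nat.floor_of_nonpos (not_le.1 h).le] at hv'
    omega
  refine Real.log_le_log (Nat.cast_pos.2 (by omega)) ((Nat.cast_le.2 hv').trans (Nat.floor_le hx))

end

/-- Beyond `exp (A n S ^ 2)` a power of `H` times the error is below `exp (- G S)`. -/
theorem error_lt_exp_neg {L : Type v} [Field L] [NumberField L] {G c K₀ A₁ x : ℝ} (hG : 0 ≤ G)
    (hc : 0 < c) (hK : 0 ≤ K₀) (hA : (8 * (G + 1 + K₀ * (32 / c) ^ 4) / c) ^ 2 ≤ A₁) (hA1 : 1 ≤ A₁) (hx : 1 ≤ x)
    (hr : A₁ * finrank ℚ L * sizeL L ^ 2 ≤ Real.log x) :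
    K₀ * (height L 0 ^ 4 * Real.exp (-(c * gauge L x))) ≤ Real.exp (-(G * sizeL L)) / 2 := by
  have hS := three_le_sizeL L
  have hn : (1 : ℝ) ≤ finrank ℚ L := Nat.one_le_cast.2 finrank_pos
  have hH := one_le_height L 0
  have hHS := FA.DedekindPIT.height_zero_le_sizeL L
  obtain ⟨S, hSdef⟩ : ∃ S, S = sizeL L := ⟨_, rfl⟩
  rw [← hSdef] at hS hHS hr ⊢
  have hrange : finrank ℚ L * height L 0 ^ 2 ≤ Real.log x := by
    refine le_trans ?_ hr
    rw [mul_assoc]
    refine le_trans ?_ (le_mul_of_one_le_left (by positivity) hA1)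
    exact mul_le_mul_of_nonneg_left (pow_le_pow_left₀ (by linarith) hHS 2) (by linarith)
  refine (mul_le_mul_of_nonneg_left (FA.Summary.effective_error_le L hc hx hrange) hK).trans ?_
  obtain ⟨M, hM⟩ : ∃ M, M = K₀ * (32 / c) ^ 4 := ⟨_, rfl⟩
  rw [← hM] at hA
  rw [← mul_assoc, ← hM]
  have hM0 : 0 ≤ M := hM ▸ by positivity
  have hu : 8 * (G + 1 + M) / c * S ≤ √(Real.log x / finrank ℚ L) := by
    refine Real.le_sqrt_of_sq_le ?_
    rw [le_div_iff₀ (by linarith), mul_pow]
    refine le_trans ?_ hr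
    have := mul_le_mul_of_nonneg_right hA (show 0 ≤ (finrank ℚ L : ℝ) * S ^ 2 by positivity)
    linarith
  have h1 : (G + 1 + M) * S ≤ c / 8 * √(Real.log x / finrank ℚ L) := by
    refine le_trans (le_of_eq ?_) (mul_le_mul_of_nonneg_left hu (show 0 ≤ c / 8 by positivity))
    field_simp
  calc M * Real.exp (-(c / 8 * √(Real.log x / finrank ℚ L)))
      ≤ Real.exp (M * S + S) / 2 * Real.exp (-((G + 1 + M) * S)) := by
        refine mul_le_mul ?_ (Real.exp_le_exp.2 (neg_le_neg h1)) (Real.exp_pos _).le (by positivity)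
        have := Real.add_one_le_exp (M * S + S)
        nlinarith
    _ = Real.exp (-(G * S)) / 2 := by
        rw [div_mul_eq_mul_div, ← Real.exp_add]
        ring_nf

/-- No real zero of `ζ_L` in the zone is closer to `1` than `exp (- G S)`. -/
def RealGap (L : Type v) [Field L] [NumberField L] (G : ℝ) : Prop :=
  ∀ E : ℂ → ℂ, Differentiable ℂ E → (∀ s : ℂ, 1 < s.re → E s = (s - 1) * dedekindZeta L s) →
    ∀ β : ℝ, 1 - zfrC / height L 0 ≤ β → E (β : ℂ) = 0 → Real.exp (-(G * sizeL L)) ≤ 1 - β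

/-- **Many unramified primes with Frobenius in `C`.** -/
theorem exists_count_ge_of_realGap {G : ℝ} (hG : 0 ≤ G) : ∃ A : ℝ, 100 ≤ A ∧
    ∀ {K : Type u} {L : Type v} [Field K] [NumberField K] [Field L] [NumberField L] [Algebra K L]
      [IsGalois K L], RealGap L G → ∀ C : Set (L ≃ₐ[K] L), (∀ g ∈ C, ∀ x, x * g * x⁻¹ ∈ C) →
      ∀ x : ℝ, 0 < x → A * finrank ℚ L * sizeL L ^ 2 ≤ Real.log x →
        share C * (Real.exp (-(G * sizeL L)) * x / 2) ≤ countIn (goodFrobSet C) x * Real.log x := by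
  obtain ⟨c, A₀, hc, hA₀, h⟩ := exists_effective.{u, v}
  obtain ⟨e, he⟩ : ∃ e, e = min c (1 / 4) := ⟨_, rfl⟩
  have he0 : 0 < e := he ▸ lt_min hc (by norm_num)
  refine ⟨max 100 ((8 * (G + 1 + (A₀ + 10) * (32 / e) ^ 4) / e) ^ 2), le_max_left _ _,
    fun {K L} _ _ _ _ _ _ hgap C hC x hx0 hr => ?_⟩
  obtain ⟨A₁, hA₁⟩ : ∃ A₁, A₁ = max 100 ((8 * (G + 1 + (A₀ + 10) * (32 / e) ^ 4) / e) ^ 2) := ⟨_, rfl⟩
  rw [← hA₁] at hr
  have hA100 : 100 ≤ A₁ := hA₁ ▸ le_max_left _ _
  have hn : (1 : ℝ) ≤ finrank ℚ L := Nat.one_le_cast.2 finrank_pos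
  have hS := three_le_sizeL L
  have hl : 10 ≤ Real.log x := by
    refine le_trans ?_ hr
    calc (10 : ℝ) ≤ 100 * 1 * 3 ^ 2 := by norm_num
      _ ≤ A₁ * finrank ℚ L * sizeL L ^ 2 := by gcongr
  have hx2 : 2 ≤ x := by
    have := Real.log_le_sub_one_of_pos hx0
    linarith
  rcases C.eq_empty_or_nonempty with rfl | hne
  · have : share (∅ : Set (L ≃ₐ[K] L)) = 0 := by simp [share]
    rw [this, zero_mul]
    positivity
  obtain ⟨σ, hσ⟩ : ∃ σ, σ = share C := ⟨_, rfl⟩
  have hs : 0 < σ := hσ ▸ share_pos hne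
  obtain ⟨H, hHdef⟩ : ∃ H, H = height L 0 := ⟨_, rfl⟩
  have hH : 1 ≤ H := hHdef ▸ one_le_height L 0
  obtain ⟨P, hP⟩ : ∃ P, P = x * Real.exp (-(e * gauge L x)) := ⟨_, rfl⟩
  have hP1 : 1 ≤ P := hP ▸ one_le_mul_exp_gauge L (by linarith [he ▸ min_le_right c (1 / 4 : ℝ)])
    (by linarith)
  -- the Chebyshev function
  have hψ : σ * (Real.exp (-(G * sizeL L)) * x) - A₀ * σ * H ^ 4 * P ≤
      partialSum (mangoldtF C) x := by
    have hPc : A₀ * σ * H ^ 4 * (x * Real.exp (-(c * gauge L x))) ≤ A₀ * σ * H ^ 4 * P := by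
      rw [hP]
      refine mul_le_mul_of_nonneg_left (mul_le_mul_of_nonneg_left (Real.exp_le_exp.2
        (neg_le_neg (mul_le_mul_of_nonneg_right (he ▸ min_le_left _ _)
          (FA.DedekindPIT.gauge_nonneg L (by linarith))))) hx0.le) (by positivity)
    have key : ∀ M : ℝ, Real.exp (-(G * sizeL L)) * x ≤ M →
        |partialSum (mangoldtF C) x - σ * M| ≤ A₀ * σ * H ^ 4 * (x * Real.exp (-(c * gauge L x))) →
        σ * (Real.exp (-(G * sizeL L)) * x) - A₀ * σ * H ^ 4 * P ≤ partialSum (mangoldtF C) x :=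
      fun M hM he' => by
      have := (abs_le.1 he').1
      have := mul_le_mul_of_nonneg_left hM hs.le
      linarith
    obtain ⟨E, hE, hEL, -⟩ := FA.ZetaDivisibility.exists_zeta_cleared L
    obtain ⟨h1, h2⟩ := h C hC E hE hEL
    rw [← hσ, ← hHdef] at h1 h2
    by_cases hno : ∀ β : ℝ, 1 - zfrC / height L 0 ≤ β → E (β : ℂ) ≠ 0
    · exact key x (mul_le_of_le_one_left hx0.le (Real.exp_le_one_iff.2
        (neg_nonpos.2 (mul_nonneg hG (by linarith)))))
        (h1 (by rwa [hHdef]) x hx2).1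
    · push Not at hno
      obtain ⟨β, hβ, h0⟩ := hno
      obtain ⟨θ, hθ, h3⟩ := h2 β (by rwa [hHdef]) h0
      have hlow := hgap E hE hEL β hβ h0
      have hδ : 0 < 1 - β := lt_of_lt_of_le (Real.exp_pos _) hlow
      have hδ1 : 1 - β ≤ 1 / 8 := by
        have := div_le_self zfrC_pos.le (one_le_height L 0)
        linarith [FA.DedekindPIT.zfrC_le]
      have hm := FA.DedekindPIT.main_ge hδ hδ1 hx0 hl
      rw [sub_sub_cancel] at hm
      refine key _ ?_ (h3 x hx2).1
      have hq : θ * (x ^ β / β) ≤ x ^ β / β :=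
        mul_le_of_le_one_left (div_nonneg (Real.rpow_nonneg hx0.le _) (by linarith))
          (abs_le.1 hθ).2
      have := mul_le_mul_of_nonneg_left hlow hx0.le
      linarith
  -- prime powers and ramified primes
  have hgood : partialSum (mangoldtF C) x - 10 * (σ * H ^ 4 * P) ≤
      partialSum (setLog (goodFrobSet C)) x := by
    have a0 : 1 ≤ σ * H := hσ ▸ hHdef ▸ one_le_share_mul_height hne
    have hlog : Real.log ((discr L).natAbs : ℝ) ≤ H := by
      have h3 : 0 ≤ (finrank ℚ L : ℝ) * Real.log (|(0 : ℝ)| + 3) :=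
        mul_nonneg (Nat.cast_nonneg _) (zero_le_one.trans (FA.DedekindZF.one_le_log 0))
      rw [hHdef, FA.DedekindZF.height]
      linarith
    have hlog0 : 0 ≤ Real.log ((discr L).natAbs : ℝ) := Real.log_natCast_nonneg _
    have hpow : ∀ k, k ≤ 4 → σ * H ^ k ≤ σ * H ^ 4 * P := fun k hk =>
      (mul_le_mul_of_nonneg_left (pow_le_pow_right₀ hH hk) hs.le).trans
        (le_mul_of_one_le_right (by positivity) hP1)
    have a1 : Real.log ((discr L).natAbs : ℝ) ≤ σ * H ^ 4 * P := by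
      refine le_trans ?_ (hpow 2 (by norm_num))
      calc Real.log ((discr L).natAbs : ℝ) ≤ 1 * H := by linarith
        _ ≤ σ * H * H := mul_le_mul_of_nonneg_right a0 (by linarith)
        _ = _ := by ring
    have hnK : (finrank ℚ K : ℝ) ≤ σ * H := (finrank_base_le hne).trans (by
      rw [← hσ, hHdef]
      exact mul_le_mul_of_nonneg_left (FA.DedekindZF.finrank_le_height L 0) hs.le)
    have a2 : (finrank ℚ K : ℝ) * (2 * √x * Real.log x) ≤ 8 * (σ * H ^ 4 * P) := by
      refine (mul_le_mul (hnK.trans (le_of_eq_of_le (by rw [pow_one]) (mul_le_mul_of_nonneg_left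
        (pow_le_pow_right₀ hH (show 1 ≤ 4 by norm_num)) hs.le)))
        (sqrt_mul_log_le_gauge (c := e) (L := L) (he ▸ min_le_right _ _) hx2) ?_ (by positivity)).trans
        (le_of_eq (by rw [hP]; ring))
      positivity
    have a3 : (finrank ℚ K : ℝ) * Real.log ((discr L).natAbs : ℝ) ≤ σ * H ^ 4 * P :=
      ((mul_le_mul hnK hlog hlog0 (by positivity)).trans (le_of_eq (by ring))).trans
        (hpow 2 (by norm_num))
    have b1 := (abs_le.1 (psiF_sub_theta_le hC (show 1 ≤ x by linarith))).2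
    have b2 := partialSum_good_ge C x
    have b3 := partialSum_setLog_disc_le (K := K) (L := L) x
    linarith
  have herr := error_lt_exp_neg (L := L) (K₀ := A₀ + 10) hG he0 (by linarith)
    (hA₁ ▸ le_max_right _ _) (by linarith) (show 1 ≤ x by linarith) hr
  have herr' := mul_le_mul_of_nonneg_left herr (show 0 ≤ σ * x by positivity)
  rw [← hHdef] at herr'
  refine le_trans ?_ (partialSum_setLog_le _ x)
  rw [← hσ]
  rw [hP] at hψ hgood
  linarith

/-- **A small unramified prime with Frobenius in `C`.** -/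
theorem exists_prime_le_of_realGap {G : ℝ} (hG : 0 ≤ G) : ∃ A : ℝ, 0 < A ∧
    ∀ {K : Type u} {L : Type v} [Field K] [NumberField K] [Field L] [NumberField L] [Algebra K L]
      [IsGalois K L], RealGap L G → ∀ C : Set (L ≃ₐ[K] L), (∀ g ∈ C, ∀ x, x * g * x⁻¹ ∈ C) →
      C.Nonempty → ∃ v ∈ goodFrobSet C,
        (Ideal.absNorm v.asIdeal : ℝ) ≤ Real.exp (A * finrank ℚ L * sizeL L ^ 2) := by
  obtain ⟨A, hA, h⟩ := exists_count_ge_of_realGap.{u, v} hG
  refine ⟨A, by linarith, fun {K L} _ _ _ _ _ _ hgap C hC hne => ?_⟩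
  obtain ⟨l, hl⟩ : ∃ l, l = A * finrank ℚ L * sizeL L ^ 2 := ⟨_, rfl⟩
  rw [← hl]
  have h1 := h hgap C hC (Real.exp l) (Real.exp_pos _) (by rw [Real.log_exp, hl])
  by_contra hno
  push Not at hno
  have h0 : countIn (goodFrobSet C) (Real.exp l) = 0 := by
    rw [countIn, Finset.card_eq_zero, Finset.filter_eq_empty_iff]
    exact fun v hv hg => (hno v hg).not_ge ((Nat.cast_le.2 (FA.Hecke.mem_primesLE.1 hv)).trans
      (Nat.floor_le (Real.exp_pos _).le))
  rw [h0, Nat.cast_zero, zero_mul] at h1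
  have : 0 < share C * (Real.exp (-(G * sizeL L)) * Real.exp l / 2) :=
    mul_pos (share_pos hne) (by positivity)
  linarith

/-- Fields Galois over `ℚ` have the gap `9`. -/
theorem realGap_of_isGalois (L : Type v) [Field L] [NumberField L] [IsGalois ℚ L] : RealGap L 9 :=
  fun _ hE hEL _ hβ h0 => FA.DedekindPIT.exp_neg_le_one_sub hE hEL hβ h0

theorem exists_good_count_ge : ∃ A : ℝ, 100 ≤ A ∧
    ∀ {K : Type u} {L : Type v} [Field K] [NumberField K] [Field L] [NumberField L] [Algebra K L]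
      [IsGalois K L] [IsGalois ℚ L] (C : Set (L ≃ₐ[K] L)), (∀ g ∈ C, ∀ x, x * g * x⁻¹ ∈ C) →
      ∀ x : ℝ, 0 < x → A * finrank ℚ L * sizeL L ^ 2 ≤ Real.log x →
        share C * (Real.exp (-(9 * sizeL L)) * x / 2) ≤ countIn (goodFrobSet C) x * Real.log x :=
  let ⟨A, hA, h⟩ := exists_count_ge_of_realGap.{u, v} (show (0 : ℝ) ≤ 9 by norm_num)
  ⟨A, hA, fun {_ L} _ _ _ _ _ _ _ C hC x hx hr => h (realGap_of_isGalois L) C hC x hx hr⟩

theorem exists_good_prime_le : ∃ A : ℝ, 0 < A ∧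
    ∀ {K : Type u} {L : Type v} [Field K] [NumberField K] [Field L] [NumberField L] [Algebra K L]
      [IsGalois K L] [IsGalois ℚ L] (C : Set (L ≃ₐ[K] L)), (∀ g ∈ C, ∀ x, x * g * x⁻¹ ∈ C) →
      C.Nonempty → ∃ v ∈ goodFrobSet C,
        (Ideal.absNorm v.asIdeal : ℝ) ≤ Real.exp (A * finrank ℚ L * sizeL L ^ 2) :=
  let ⟨A, hA, h⟩ := exists_prime_le_of_realGap.{u, v} (show (0 : ℝ) ≤ 9 by norm_num)
  ⟨A, hA, fun {_ L} _ _ _ _ _ _ _ C hC hne => h (realGap_of_isGalois L) C hC hne⟩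

end FA.EffCheb

end
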