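import Fermat.Agent.ChebotarevError.Count

/-!
# The primes where a Frobenius class is ambiguous

They ramify in `L`, so for each of them a prime above divides the different of `L/K`, whose norm
divides `d_L`: their `log N` sum to at most `log |d_L|`.
-/

set_option autoImplicit false
set_option linter.style.haveILetI false
set_option linter.unusedSectionVars false

noncomputable section

open NumberField IsDedekindDomain Module Finset
open FA.NaturalChebotarev (someFrobSet finite_someFrobSet_diff)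
open FA.Chebotarev (strictFrobSet)
open scoped Classical Pointwise

namespace FA.EffCheb

variable {K L : Type*} [Field K] [NumberField K] [Field L] [NumberField L] [Algebra K L]
variable [IsGalois K L]

theorem absNorm_under_le {Q : Ideal (𝓞 L)} (hQ : Q ≠ ⊥) :
    Ideal.absNorm (Q.under (𝓞 K)) ≤ Ideal.absNorm Q := by
  haveI : Finite (𝓞 L ⧸ Q) := Ideal.finiteQuotientOfFreeOfNeBot _ hQ
  rw [Ideal.absNorm_apply, Ideal.absNorm_apply, Submodule.cardQuot_apply, Submodule.cardQuot_apply]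
  exact Nat.card_le_card_of_injective
    (Ideal.quotientMap Q (algebraMap (𝓞 K) (𝓞 L)) le_rfl) Ideal.quotientMap_injective

/-- An ambiguous prime is below a prime dividing the different. -/
theorem exists_dvd_different {C : Set (L ≃ₐ[K] L)} (hC : ∀ g ∈ C, ∀ x, x * g * x⁻¹ ∈ C)
    {v : HeightOneSpectrum (𝓞 K)} (hv : v ∈ someFrobSet K L C \ strictFrobSet K L C) :
    ∃ Q : Ideal (𝓞 L), Q.IsMaximal ∧ Q.under (𝓞 K) = v.asIdeal ∧
      Q ∣ differentIdeal (𝓞 K) (𝓞 L) := by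
  obtain ⟨⟨Q, hQ, hQv, τ, hτC, hτ⟩, hv⟩ := hv
  by_contra hno
  refine hv fun Q' hQ' hQ'v τ' hτ' => ?_
  obtain ⟨h, hh⟩ := Algebra.IsInvariant.exists_smul_of_under_eq (𝓞 K) (𝓞 L) (L ≃ₐ[K] L)
    Q Q' (hQv.trans hQ'v.symm)
  have h1 := IsArithFrobAt.mul_inv_mem_inertia (R := 𝓞 K) (hh ▸ hτ.conj h) hτ'
  haveI := hQ'
  haveI := hQ'.isPrime
  haveI : Q'.LiesOver v.asIdeal := ⟨hQ'v.symm⟩
  haveI := v.isMaximal
  haveI : Finite (𝓞 K ⧸ v.asIdeal) := Ideal.finiteQuotientOfFreeOfNeBot _ v.ne_bot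
  haveI hur : Algebra.IsUnramifiedAt (𝓞 K) Q' := by
    by_contra hr
    exact hno ⟨Q', hQ', hQ'v, dvd_differentIdeal_iff.2 hr⟩
  have hcard : Nat.card (Q'.inertia (L ≃ₐ[K] L)) = 1 := by
    rw [Ideal.card_inertia_eq_ramificationIdxIn v.asIdeal Q',
      Ideal.ramificationIdxIn_eq_ramificationIdx v.asIdeal Q' (L ≃ₐ[K] L),
      Ideal.ramificationIdx_eq_one]
  rw [Subgroup.card_eq_one] at hcard
  rw [hcard, Subgroup.mem_bot, mul_inv_eq_one] at h1
  rw [← h1]
  exact hC _ hτC h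

/-- **Their `log N` sum to at most `log |d_L|`.** -/
theorem sum_log_ambiguous_le {C : Set (L ≃ₐ[K] L)} (hC : ∀ g ∈ C, ∀ x, x * g * x⁻¹ ∈ C) :
    ∑ v ∈ (finite_someFrobSet_diff C hC).toFinset, Real.log (Ideal.absNorm v.asIdeal) ≤
      Real.log ((discr L).natAbs : ℝ) := by
  set T := (finite_someFrobSet_diff C hC).toFinset
  choose! Q hQ hQv hQd using fun v (hv : v ∈ T) =>
    exists_dvd_different hC ((finite_someFrobSet_diff C hC).mem_toFinset.1 hv)
  have hQ0 : ∀ v ∈ T, Q v ≠ ⊥ := fun v hv h =>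
    v.ne_bot (by rw [← hQv v hv, h]; exact Ideal.under_bot (𝓞 K) (𝓞 L))
  have hinj : Set.InjOn Q T := fun a ha b hb e =>
    HeightOneSpectrum.ext (by rw [← hQv a ha, ← hQv b hb, e])
  have hdvd : ∏ P ∈ T.image Q, P ∣ differentIdeal (𝓞 K) (𝓞 L) :=
    Finset.prod_primes_dvd _ (fun P hP => by
      obtain ⟨v, hv, rfl⟩ := Finset.mem_image.1 hP
      exact Ideal.prime_of_isPrime (hQ0 v hv) (hQ v hv).isPrime) fun P hP => by
      obtain ⟨v, hv, rfl⟩ := Finset.mem_image.1 hP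
      exact hQd v hv
  rw [Finset.prod_image hinj] at hdvd
  have h1 := map_dvd Ideal.absNorm hdvd
  rw [map_prod] at h1
  have h2 : Ideal.absNorm (differentIdeal (𝓞 K) (𝓞 L)) ∣ (discr L).natAbs :=
    Dvd.intro _ (natAbs_discr_eq_absNorm_differentIdeal_mul_natAbs_discr_pow K (𝓞 K) L (𝓞 L)).symm
  have h3 : ∏ v ∈ T, Ideal.absNorm v.asIdeal ≤ (discr L).natAbs :=
    (Finset.prod_le_prod (fun _ _ => Nat.zero_le _)
      fun v hv => (hQv v hv) ▸ absNorm_under_le (hQ0 v hv)).trans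
      (Nat.le_of_dvd (Int.natAbs_pos.2 (discr_ne_zero L)) (h1.trans h2))
  have hpos : ∀ v ∈ T, ((Ideal.absNorm v.asIdeal : ℕ) : ℝ) ≠ 0 := fun v _ => by
    have := FA.Ext.two_le_absNorm v
    positivity
  rw [← Real.log_prod hpos]
  refine Real.log_le_log (Finset.prod_pos fun v hv => ?_) (by exact_mod_cast h3)
  exact lt_of_le_of_ne (Nat.cast_nonneg _) (hpos v hv).symm

end FA.EffCheb

end
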