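import Fermat.Agent.EffectiveChebotarev.Region
import Fermat.Agent.EffectiveChebotarev.Ramified

/-!
# Chebotarev's theorem, uniform in the extension

With `H = 1 + log |d_L| + n_L log 3` and absolute `c`, `A`, the three counting functions of a set `C`
of Frobenius elements are `share` times their main terms up to
`A share H ^ 4 x exp (- c gauge_L x)`.
-/

set_option autoImplicit false
set_option linter.style.haveILetI false
set_option linter.unusedSectionVars false

noncomputable section

universe u v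

open NumberField IsDedekindDomain Module Finset MeasureTheory
open FA.DedekindZF (height zfrC zfrC_pos one_le_height)
open FA.DedekindPIT (partialSum gauge gaugeD gauge_nonneg gauge_le_log one_le_gaugeD)
open FA.ChebError (share mangoldtF setLog)
open FA.NaturalChebotarev (countIn someFrobSet finite_someFrobSet_diff)
open scoped Real Classical ArithmeticFunction.vonMangoldt

namespace FA.EffCheb

section summation

variable {L : Type*} [Field L] [NumberField L]

/-- `√x log x` is an error term. -/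
theorem sqrt_mul_log_le_gauge {c x : ℝ} (hc : c ≤ 1 / 4) (hx : 2 ≤ x) :
    2 * √x * Real.log x ≤ 8 * (x * Real.exp (-(c * gauge L x))) := by
  have hx0 : 0 < x := by linarith
  have hg0 := gauge_nonneg L (show 1 ≤ x by linarith)
  have hgl := gauge_le_log L (show 1 ≤ x by linarith)
  have h2 := Real.log_le_rpow_div hx0.le (show (0 : ℝ) < 1 / 4 by norm_num)
  have h3 : x ^ (-(1 / 4) : ℝ) ≤ Real.exp (-(c * gauge L x)) := by
    rw [Real.rpow_def_of_pos hx0]
    refine Real.exp_le_exp.2 ?_
    have := mul_le_mul hc hgl hg0 (by norm_num : (0 : ℝ) ≤ 1 / 4)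
    linarith
  calc 2 * √x * Real.log x ≤ 2 * √x * (x ^ (1 / 4 : ℝ) / (1 / 4)) :=
        mul_le_mul_of_nonneg_left h2 (by positivity)
    _ = 8 * (x ^ (1 / 2 : ℝ) * x ^ (1 / 4 : ℝ)) := by rw [Real.sqrt_eq_rpow]; ring
    _ = 8 * (x * x ^ (-(1 / 4) : ℝ)) := by
        rw [← Real.rpow_add hx0, ← Real.rpow_one_add' hx0.le (by norm_num)]
        norm_num
    _ ≤ _ := by gcongr

/-- Partial summation for any main term. -/
theorem count_sub_le_gauge {a : ℕ → ℝ} (h0 : a 0 = 0) (h1 : a 1 = 0) {M m : ℝ → ℝ} {B c : ℝ}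
    (hB : 0 ≤ B) (hc : 0 ≤ c) (hc1 : c ≤ 1 / 4)
    (hM : ∀ t : ℝ, 2 ≤ t → HasDerivAt M (m t) t) (hm : ContinuousOn m (Set.Ici 2))
    (hM2 : |M 2| ≤ B)
    (hθ : ∀ t : ℝ, 2 ≤ t → |partialSum a t - M t| ≤ B * (t * Real.exp (-(c * gauge L t))))
    {x : ℝ} (hx : 2 ≤ x) :
    |∑ n ∈ Icc 1 ⌊x⌋₊, (Real.log n)⁻¹ * a n - ∫ t in (2 : ℝ)..x, m t / Real.log t| ≤
      12 * B * (x * Real.exp (-(c / 2 * gauge L x))) := by
  have hx0 : 0 < x := by linarith
  obtain ⟨E, hE⟩ : ∃ E, E = Real.exp (-(c / 2 * gauge L x)) := ⟨_, rfl⟩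
  rw [← hE]
  have hE0 : 0 < E := hE ▸ Real.exp_pos _
  have hl2 : 0.69 < Real.log 2 := lt_trans (by norm_num) Real.log_two_gt_d9
  have hg0 := gauge_nonneg L (show 1 ≤ x by linarith)
  have hgl := gauge_le_log L (show 1 ≤ x by linarith)
  have hne : ∀ t ∈ Set.uIcc 2 x, 2 ≤ t ∧ t ≠ 0 ∧ Real.log t ≠ 0 := fun t ht => by
    rw [Set.uIcc_of_le hx] at ht
    exact ⟨ht.1, by linarith [ht.1], (Real.log_pos (by linarith [ht.1])).ne'⟩
  have hcont : ContinuousOn (fun t => Real.log t) (Set.uIcc 2 x) :=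
    fun t ht => (Real.continuousAt_log (hne t ht).2.1).continuousWithinAt
  have i1 : IntervalIntegrable (fun t => m t / Real.log t) volume 2 x :=
    ((hm.mono fun t ht => (hne t ht).1).div hcont fun t ht => (hne t ht).2.2).intervalIntegrable
  have i2 : IntervalIntegrable (fun t => M t / (t * Real.log t ^ 2)) volume 2 x := by
    refine ContinuousOn.intervalIntegrable ?_
    refine (ContinuousOn.div (fun t ht => ((hM t (hne t ht).1).continuousAt).continuousWithinAt)
      (continuousOn_id.mul (hcont.pow 2)) fun t ht => ?_)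
    exact mul_ne_zero (hne t ht).2.1 (pow_ne_zero 2 (hne t ht).2.2)
  have hparts : ∫ t in (2 : ℝ)..x, m t / Real.log t =
      M x / Real.log x - M 2 / Real.log 2 + ∫ t in (2 : ℝ)..x, M t / (t * Real.log t ^ 2) := by
    have hd : ∀ t ∈ Set.uIcc 2 x, HasDerivAt (fun u => M u / Real.log u)
        (m t / Real.log t - M t / (t * Real.log t ^ 2)) t := fun t ht => by
      obtain ⟨h2, ht0, hl⟩ := hne t ht
      refine ((hM t h2).div (Real.hasDerivAt_log ht0) hl).congr_deriv ?_
      field_simp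
    have := intervalIntegral.integral_eq_sub_of_hasDerivAt hd (i1.sub i2)
    rw [intervalIntegral.integral_sub i1 i2] at this
    linarith
  have i3 := FA.ChebError.intervalIntegrable_partialSum a hx
  have hint : |(∫ t in (2 : ℝ)..x, partialSum a t / (t * Real.log t ^ 2)) -
      ∫ t in (2 : ℝ)..x, M t / (t * Real.log t ^ 2)| ≤ 5 * B * (x * E) := by
    rw [← intervalIntegral.integral_sub i3 i2, ← Real.norm_eq_abs]
    have hg : IntervalIntegrable (fun t : ℝ => B / Real.log 2 ^ 2 * (√x * E * t ^ (-(1 / 2) : ℝ)))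
        volume 2 x :=
      ((intervalIntegral.intervalIntegrable_rpow' (by norm_num)).const_mul _).const_mul _
    refine (intervalIntegral.norm_integral_le_of_norm_le hx
      (Filter.Eventually.of_forall fun t ht => ?_) hg).trans ?_
    · have ht2 : 2 ≤ t := ht.1.le
      have ht0 : 0 < t := by linarith
      have hlt : Real.log 2 ≤ Real.log t := Real.log_le_log two_pos ht2
      have e1 : partialSum a t / (t * Real.log t ^ 2) - M t / (t * Real.log t ^ 2) =
          (partialSum a t - M t) / (t * Real.log t ^ 2) := by ring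
      have e2 : Real.exp (-(c * gauge L t)) ≤ √x * E * t ^ (-(1 / 2) : ℝ) := by
        rw [hE, Real.sqrt_eq_rpow, Real.rpow_def_of_pos hx0, Real.rpow_def_of_pos ht0, ← Real.exp_add,
          ← Real.exp_add]
        refine Real.exp_le_exp.2 ?_
        have hltx : Real.log t ≤ Real.log x := Real.log_le_log ht0 ht.2
        have hgt0 := gauge_nonneg L (show 1 ≤ t by linarith)
        rcases le_total (Real.log x / 2) (Real.log t) with h | h
        · have hD : gaugeD L t ≤ gaugeD L x := by
            rw [gaugeD, gaugeD]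
            gcongr
          have hh : gauge L x / 2 ≤ gauge L t := by
            have := one_le_gaugeD L t
            rw [FA.DedekindPIT.gauge, FA.DedekindPIT.gauge, div_right_comm]
            exact div_le_div₀ (by linarith) h (by linarith) hD
          have := mul_le_mul_of_nonneg_left hh hc
          linarith
        · have := mul_le_mul (show c / 2 ≤ 1 / 8 by linarith) hgl hg0 (by norm_num)
          have := mul_nonneg hc hgt0
          linarith
      have hl0 : 0 < Real.log t := Real.log_pos (by linarith)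
      rw [Real.norm_eq_abs, e1, abs_div, abs_of_pos (by positivity : 0 < t * Real.log t ^ 2)]
      calc |partialSum a t - M t| / (t * Real.log t ^ 2)
          ≤ B * (t * Real.exp (-(c * gauge L t))) / (t * Real.log t ^ 2) := by
            gcongr; exact hθ t ht2
        _ = B / Real.log t ^ 2 * Real.exp (-(c * gauge L t)) := by field_simp
        _ ≤ _ := mul_le_mul (by gcongr) e2 (Real.exp_pos _).le (by positivity)
    · rw [intervalIntegral.integral_const_mul, intervalIntegral.integral_const_mul,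
        integral_rpow (Or.inl (by norm_num))]
      norm_num
      rw [← Real.sqrt_eq_rpow, ← Real.sqrt_eq_rpow]
      have hss : √x * √x = x := Real.mul_self_sqrt hx0.le
      have h47 : B / Real.log 2 ^ 2 ≤ B * (5 / 2) := by
        rw [div_le_iff₀ (by positivity), mul_assoc]
        exact le_mul_of_one_le_right hB (by nlinarith)
      calc B / Real.log 2 ^ 2 * (√x * E * ((√x - √2) / (1 / 2)))
          = 2 * (B / Real.log 2 ^ 2) * (√x * √x * E) - 2 * (B / Real.log 2 ^ 2 * (√x * E) * √2) := by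
            ring
        _ ≤ 2 * (B / Real.log 2 ^ 2) * (x * E) := by
            rw [hss]
            linarith [show 0 ≤ B / Real.log 2 ^ 2 * (√x * E) * √2 by positivity]
        _ ≤ _ := by
            have := mul_le_mul_of_nonneg_right h47 (show 0 ≤ x * E by positivity)
            linarith
  have hxE : 1 ≤ x * E := hE ▸ one_le_mul_exp_gauge L (show c / 2 ≤ 1 by linarith) (by linarith)
  have hconst : |M 2 / Real.log 2| ≤ 2 * B * (x * E) := by
    rw [abs_div, abs_of_pos (by linarith : 0 < Real.log 2), div_le_iff₀ (by linarith)]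
    have h1 : B ≤ B * (x * E) := le_mul_of_one_le_right hB hxE
    have h2 := mul_le_mul_of_nonneg_left (show 1 ≤ 2 * Real.log 2 by linarith)
      (show 0 ≤ B * (x * E) by positivity)
    linarith
  have hlx : Real.log 2 ≤ Real.log x := Real.log_le_log two_pos hx
  have hmain : |(partialSum a x - M x) / Real.log x| ≤ 2 * B * (x * E) := by
    rw [abs_div, abs_of_pos (by linarith : 0 < Real.log x), div_le_iff₀ (by linarith)]
    refine (hθ x hx).trans ?_
    have he : Real.exp (-(c * gauge L x)) ≤ E := by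
      rw [hE]
      refine Real.exp_le_exp.2 ?_
      have := mul_nonneg hc hg0
      linarith
    have h1 := mul_le_mul_of_nonneg_left (mul_le_mul_of_nonneg_left he hx0.le) hB
    have h2 := mul_le_mul_of_nonneg_left (show 1 ≤ 2 * Real.log x by linarith)
      (show 0 ≤ B * (x * E) by positivity)
    linarith
  rw [FA.ChebError.sum_inv_log_eq h0 h1 hx, hparts]
  rw [sub_div] at hmain
  have hBxE : 0 ≤ B * (x * E) := by positivity
  rw [abs_le] at hint hmain hconst ⊢
  constructor <;> linarith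

end summation

section

variable {K L : Type*} [Field K] [NumberField K] [Field L] [NumberField L] [Algebra K L]
variable [IsGalois K L]

theorem share_mul_card (C : Set (L ≃ₐ[K] L)) :
    share C * Nat.card (L ≃ₐ[K] L) = C.toFinset.card := by
  rw [share_eq, mul_assoc, inv_mul_cancel₀ (Nat.cast_ne_zero.2 Nat.card_pos.ne'), mul_one]

theorem one_le_share_mul_height {C : Set (L ≃ₐ[K] L)} (hne : C.Nonempty) :
    1 ≤ share C * height L 0 := by
  refine le_trans ?_ (mul_le_mul_of_nonneg_left (card_le_height (K := K) (L := L)) (share_pos hne).le)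
  rw [share_mul_card, Nat.one_le_cast]
  exact Finset.card_pos.2 (Set.toFinset_nonempty.2 hne)

theorem finrank_base_le {C : Set (L ≃ₐ[K] L)} (hne : C.Nonempty) :
    (finrank ℚ K : ℝ) ≤ share C * finrank ℚ L := by
  rw [← Module.finrank_mul_finrank ℚ K L, Nat.cast_mul, ← IsGalois.card_aut_eq_finrank K L,
    mul_comm (finrank ℚ K : ℝ) (Nat.card _ : ℝ), ← mul_assoc, share_mul_card]
  exact le_mul_of_one_le_left (Nat.cast_nonneg _)
    (Nat.one_le_cast.2 (Finset.card_pos.2 (Set.toFinset_nonempty.2 hne)))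

theorem mangoldtF_le_share {C : Set (L ≃ₐ[K] L)} (hne : C.Nonempty) (n : ℕ) :
    mangoldtF C n ≤ share C * finrank ℚ L * Λ n :=
  (FA.ChebError.mangoldtF_le C n).trans (mul_le_mul_of_nonneg_right (finrank_base_le hne)
    ArithmeticFunction.vonMangoldt_nonneg)

/-- From `Λ`-sums to sums over primes: the ambiguous primes and the prime powers. -/
theorem psiF_sub_theta_sum_le {C : Set (L ≃ₐ[K] L)} (hC : ∀ g ∈ C, ∀ x, x * g * x⁻¹ ∈ C) {x : ℝ}
    (hx : 1 ≤ x) :
    |partialSum (mangoldtF C) x - partialSum (setLog (someFrobSet K L C)) x| ≤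
      (∑ v ∈ (finite_someFrobSet_diff C hC).toFinset, Real.log (Ideal.absNorm v.asIdeal)) +
        finrank ℚ K * (2 * √x * Real.log x) := by
  set T := (finite_someFrobSet_diff C hC).toFinset
  rw [FA.ChebError.partialSum_setLog]
  set w : HeightOneSpectrum (𝓞 K) × ℕ → ℝ := fun p => FA.ChebError.frobShare C p.1 (p.2 + 1)
  have hw0 : ∀ p, 0 ≤ w p := fun p => FA.ChebError.frobShare_nonneg C _ _
  have hw1 : ∀ p, w p ≤ 1 := fun p => FA.ChebError.frobShare_le_one C _ _
  set θw := FA.Hecke.wSum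
    (fun v : HeightOneSpectrum (𝓞 K) => w (v, 0) * Real.log (Ideal.absNorm v.asIdeal)) x
  set θc := FA.Hecke.wSum (fun v : HeightOneSpectrum (𝓞 K) =>
    (1 - w (v, 0)) * Real.log (Ideal.absNorm v.asIdeal)) x
  have h1 : θw ≤ partialSum (mangoldtF C) x := FA.Hecke.theta_le_summatory hw0 hw1 x
  have h2 : θc ≤ partialSum (FA.Hecke.fiberSum fun p => 1 - w p) x :=
    FA.Hecke.theta_le_summatory (fun p => sub_nonneg.2 (hw1 p)) (fun p => sub_le_self 1 (hw0 p)) x
  have h3 : partialSum (mangoldtF C) x + partialSum (FA.Hecke.fiberSum fun p => 1 - w p) x =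
      FA.DedekindPIT.psiK K x := by
    rw [partialSum, partialSum, FA.DedekindPIT.psiK, ← sum_add_distrib]
    refine sum_congr rfl fun n _ => ?_
    rw [mangoldtF, FA.DedekindPIT.mangoldtK, FA.Hecke.fiberSum, FA.Hecke.fiberSum, FA.Hecke.fiberSum,
      ← (FA.Hecke.summable_fiberSum hw0 hw1 n).tsum_add (FA.Hecke.summable_fiberSum
        (fun p => sub_nonneg.2 (hw1 p)) (fun p => sub_le_self 1 (hw0 p)) n)]
    refine tsum_congr fun p => ?_
    show w p.1 * _ + (1 - w p.1) * _ = 1 * _
    ring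
  have h4 : θw + θc = FA.DedekindPIT.thetaK K x := by
    simp only [θw, θc, FA.DedekindPIT.thetaK, FA.Hecke.wSum, ← sum_add_distrib]
    exact sum_congr rfl fun v _ => by ring
  have h5 := FA.DedekindPIT.psiK_sub_thetaK_le K hx
  have h6 : |θw - FA.Hecke.wSum (fun v => if v ∈ someFrobSet K L C then
      Real.log (Ideal.absNorm v.asIdeal) else 0) x| ≤
        ∑ v ∈ T, Real.log (Ideal.absNorm v.asIdeal) := by
    simp only [θw, FA.Hecke.wSum, ← sum_sub_distrib]
    refine (abs_sum_le_sum_abs _ _).trans ?_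
    refine (sum_le_sum fun v _ => show _ ≤ if v ∈ T then Real.log (Ideal.absNorm v.asIdeal) else 0
      from ?_).trans ?_
    · have hl := Real.log_natCast_nonneg (Ideal.absNorm v.asIdeal)
      by_cases hv : v ∈ T
      · rw [if_pos hv, abs_le]
        have := hw0 (v, 0)
        have := hw1 (v, 0)
        split_ifs <;> constructor <;> nlinarith
      · rw [if_neg hv, show w (v, 0) = FA.ChebError.frobShare C v 1 from rfl,
          FA.ChebError.frobShare_eq_ind fun h => hv ((finite_someFrobSet_diff C hC).mem_toFinset.2 h)]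
        split_ifs <;> simp
    · rw [← sum_filter]
      exact sum_le_sum_of_subset_of_nonneg (fun v hv => (mem_filter.1 hv).2)
        fun v _ _ => Real.log_natCast_nonneg _
  rw [abs_le] at h6 ⊢
  constructor <;> linarith

/-- From `Λ`-sums to sums over primes, uniformly. -/
theorem psiF_sub_theta_le {C : Set (L ≃ₐ[K] L)} (hC : ∀ g ∈ C, ∀ x, x * g * x⁻¹ ∈ C) {x : ℝ}
    (hx : 1 ≤ x) :
    |partialSum (mangoldtF C) x - partialSum (setLog (someFrobSet K L C)) x| ≤
      Real.log ((discr L).natAbs : ℝ) + finrank ℚ K * (2 * √x * Real.log x) :=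
  (psiF_sub_theta_sum_le hC hx).trans (add_le_add (sum_log_ambiguous_le hC) le_rfl)

end

/-- **`ψ_C` from a continuation.** -/
theorem exists_psiF_le : ∃ c A : ℝ, 0 < c ∧ c ≤ 1 / 8 ∧ 0 ≤ A ∧
    ∀ {K : Type u} {L : Type v} [Field K] [NumberField K] [Field L] [NumberField L] [Algebra K L]
      [IsGalois K L] (C : Set (L ≃ₐ[K] L)) (θ β : ℝ), C.Nonempty → |θ| ≤ 1 → 3 / 4 ≤ β → β ≤ 1 →
      Continues L (fun n => mangoldtF C n / (2 * share C) - (1 - θ * (n : ℝ) ^ (β - 1)) / 2)
        (regionC * height L 0 ^ 4) →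
      ∀ x : ℝ, 2 ≤ x → |partialSum (mangoldtF C) x - share C * (x - θ * (x ^ β / β))| ≤
        A * share C * height L 0 ^ 4 * (x * Real.exp (-(c * gauge L x))) := by
  obtain ⟨c, C₁, hc, hc8, hC₁, h⟩ := exists_partialSum_sub_le.{v}
  refine ⟨c, 2 * C₁ * (regionC + 2) + 4, hc, hc8, by have := regionC_nonneg; positivity,
    fun {K L} _ _ _ _ _ _ C θ β hne hθ hβ0 hβ1 hcont x hx => ?_⟩
  have hx0 : 0 < x := by linarith
  have hs := share_pos hne
  have hH := one_le_height L 0
  have hH4 : 1 ≤ height L 0 ^ 4 := one_le_pow₀ hH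
  have hR := regionC_nonneg
  obtain ⟨σ, hσ⟩ : ∃ σ, σ = share C := ⟨_, rfl⟩
  rw [← hσ] at hs hcont ⊢
  obtain ⟨P, hP⟩ : ∃ P, P = x * Real.exp (-(c * gauge L x)) := ⟨_, rfl⟩
  have hP1 : 1 ≤ P := hP ▸ one_le_mul_exp_gauge L (by linarith) (by linarith)
  rw [← hP]
  have hw : ∀ n : ℕ, 1 ≤ n → |θ * (n : ℝ) ^ (β - 1)| ≤ 1 := fun n hn => by
    rw [abs_mul]
    refine mul_le_one₀ hθ (abs_nonneg _) ?_
    rw [abs_of_nonneg (Real.rpow_nonneg (Nat.cast_nonneg n) _)]
    exact Real.rpow_le_one_of_one_le_of_nonpos (Nat.one_le_cast.2 hn) (by linarith)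
  have hf := h L (fun n => mangoldtF C n / (2 * σ)) (fun n => (1 - θ * (n : ℝ) ^ (β - 1)) / 2)
    ((finrank ℚ L : ℝ) / 2) (regionC * height L 0 ^ 4) (by positivity) (by positivity)
    (fun n => div_nonneg (FA.ChebError.mangoldtF_nonneg C n) (by positivity))
    (fun n => by
      rw [div_le_iff₀ (by positivity)]
      refine (mangoldtF_le_share hne n).trans (le_of_eq ?_)
      rw [← hσ]; ring)
    (fun n hn => by have := abs_le.1 (hw n hn); linarith)
    (fun n hn => by have := abs_le.1 (hw n hn); linarith) hcont x hx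
  rw [← hP] at hf
  have e1 : partialSum (fun n => mangoldtF C n / (2 * σ)) x = partialSum (mangoldtF C) x / (2 * σ) := by
    rw [partialSum, partialSum, Finset.sum_div]
  have e2 : |partialSum (fun n : ℕ => (1 - θ * (n : ℝ) ^ (β - 1)) / 2) x -
      (x - θ * (x ^ β / β)) / 2| ≤ 2 := by
    have h2 := FA.DedekindPIT.sum_rpow_near (show 0 < β by linarith) hβ1 hx0.le
    have h4 : 1 / β ≤ 2 := by rw [div_le_iff₀ (by linarith)]; linarith
    have h5 : |θ * (∑ n ∈ Icc 1 ⌊x⌋₊, (n : ℝ) ^ (β - 1) - x ^ β / β)| ≤ 2 := by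
      rw [abs_mul]
      exact (mul_le_of_le_one_left (abs_nonneg _) hθ).trans (h2.trans h4)
    rw [partialSum, ← Finset.sum_div, Finset.sum_sub_distrib, ← Finset.mul_sum, sum_const,
      Nat.card_Icc, Nat.add_sub_cancel, nsmul_eq_mul, mul_one]
    have := Nat.floor_le hx0.le
    have := Nat.lt_floor_add_one x
    rw [abs_le] at h5 ⊢
    constructor <;> linarith
  rw [e1] at hf
  obtain ⟨S, hS⟩ : ∃ S, S = partialSum (mangoldtF C) x := ⟨_, rfl⟩
  rw [← hS] at hf ⊢
  have e3 : |S / (2 * σ) - (x - θ * (x ^ β / β)) / 2| ≤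
      (C₁ * (regionC + 2) + 2) * height L 0 ^ 4 * P := by
    have hn : (finrank ℚ L : ℝ) ≤ height L 0 ^ 4 :=
      (FA.DedekindZF.finrank_le_height L 0).trans (le_self_pow₀ hH (by norm_num))
    have a1 : C₁ * (regionC * height L 0 ^ 4 + (finrank ℚ L : ℝ) / 2 + 1) * P ≤
        C₁ * (regionC + 2) * height L 0 ^ 4 * P := by
      rw [mul_assoc C₁ (regionC + 2)]
      refine mul_le_mul_of_nonneg_right (mul_le_mul_of_nonneg_left ?_ hC₁) (by linarith)
      linarith
    have a2 : 2 ≤ 2 * height L 0 ^ 4 * P := by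
      have := one_le_mul_of_one_le_of_one_le hH4 hP1
      linarith
    refine (abs_sub_le _ (partialSum (fun n : ℕ => (1 - θ * (n : ℝ) ^ (β - 1)) / 2) x) _).trans ?_
    linarith
  have e4 : S - σ * (x - θ * (x ^ β / β)) =
      2 * σ * (S / (2 * σ) - (x - θ * (x ^ β / β)) / 2) := by field_simp
  rw [e4, abs_mul, abs_of_pos (by positivity : 0 < 2 * σ)]
  refine (mul_le_mul_of_nonneg_left e3 (by positivity)).trans (le_of_eq ?_)
  ring

/-- **`θ_C` and `π_C` from a continuation.** -/
theorem exists_count_le : ∃ c A : ℝ, 0 < c ∧ 0 ≤ A ∧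
    ∀ {K : Type u} {L : Type v} [Field K] [NumberField K] [Field L] [NumberField L] [Algebra K L]
      [IsGalois K L] (C : Set (L ≃ₐ[K] L)), (∀ g ∈ C, ∀ x, x * g * x⁻¹ ∈ C) → ∀ θ β : ℝ,
      C.Nonempty → |θ| ≤ 1 → 3 / 4 ≤ β → β ≤ 1 →
      Continues L (fun n => mangoldtF C n / (2 * share C) - (1 - θ * (n : ℝ) ^ (β - 1)) / 2)
        (regionC * height L 0 ^ 4) →
      ∀ x : ℝ, 2 ≤ x →
        |partialSum (mangoldtF C) x - share C * (x - θ * (x ^ β / β))| ≤
            A * share C * height L 0 ^ 4 * (x * Real.exp (-(c * gauge L x))) ∧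
        |(countIn (someFrobSet K L C) x : ℝ) -
            share C * ∫ t in (2 : ℝ)..x, (1 - θ * t ^ (β - 1)) / Real.log t| ≤
            A * share C * height L 0 ^ 4 * (x * Real.exp (-(c * gauge L x))) := by
  obtain ⟨c, A, hc, hc8, hA, h⟩ := exists_psiF_le.{u, v}
  refine ⟨c / 2, 12 * (A + 10), by positivity, by positivity,
    fun {K L} _ _ _ _ _ _ C hC θ β hne hθ hβ0 hβ1 hcont x hx => ?_⟩
  obtain ⟨σ, hσ⟩ : ∃ σ, σ = share C := ⟨_, rfl⟩
  have hs : 0 < σ := hσ ▸ share_pos hne
  have hH := one_le_height L 0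
  obtain ⟨H, hHdef⟩ : ∃ H, H = height L 0 := ⟨_, rfl⟩
  rw [← hHdef] at hH
  have hH4 : 1 ≤ H ^ 4 := one_le_pow₀ hH
  have h4 : 5 ≤ (A + 10) * H ^ 4 := by nlinarith
  have hθ' : ∀ t : ℝ, 2 ≤ t → |partialSum (setLog (someFrobSet K L C)) t -
      σ * (t - θ * (t ^ β / β))| ≤ (A + 10) * σ * H ^ 4 * (t * Real.exp (-(c * gauge L t))) :=
    fun t ht => by
    have ht0 : 0 < t := by linarith
    have h1 := h C θ β hne hθ hβ0 hβ1 hcont t ht
    rw [← hσ, ← hHdef] at h1
    have h2 := psiF_sub_theta_le hC (show 1 ≤ t by linarith)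
    obtain ⟨P, hP⟩ : ∃ P, P = t * Real.exp (-(c * gauge L t)) := ⟨_, rfl⟩
    rw [← hP] at h1 ⊢
    have hP1 : 1 ≤ P := hP ▸ one_le_mul_exp_gauge L (by linarith) (by linarith)
    have a0 : 1 ≤ σ * H := hσ ▸ hHdef ▸ one_le_share_mul_height hne
    have a1 : Real.log ((discr L).natAbs : ℝ) ≤ σ * H ^ 4 * P := by
      have hlog : Real.log ((discr L).natAbs : ℝ) ≤ H := by
        have h3 : 0 ≤ (finrank ℚ L : ℝ) * Real.log (|(0 : ℝ)| + 3) :=
          mul_nonneg (Nat.cast_nonneg _) (zero_le_one.trans (FA.DedekindZF.one_le_log 0))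
        rw [hHdef, FA.DedekindZF.height]
        linarith
      calc Real.log ((discr L).natAbs : ℝ) ≤ 1 * H := by linarith
        _ ≤ σ * H * H := mul_le_mul_of_nonneg_right a0 (by linarith)
        _ = σ * H ^ 2 * 1 := by ring
        _ ≤ σ * H ^ 4 * P := mul_le_mul (mul_le_mul_of_nonneg_left
            (pow_le_pow_right₀ hH (by norm_num)) hs.le) hP1 zero_le_one (by positivity)
    have a2 : (finrank ℚ K : ℝ) * (2 * √t * Real.log t) ≤ 8 * (σ * H ^ 4 * P) := by
      have hn : (finrank ℚ K : ℝ) ≤ σ * H ^ 4 := by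
        refine (finrank_base_le hne).trans ?_
        rw [← hσ]
        refine mul_le_mul_of_nonneg_left ((FA.DedekindZF.finrank_le_height L 0).trans ?_) hs.le
        rw [← hHdef]
        exact le_self_pow₀ hH (by norm_num)
      refine (mul_le_mul hn (sqrt_mul_log_le_gauge (c := c) (L := L) (by linarith) ht) ?_
        (by positivity)).trans (le_of_eq (by rw [hP]; ring))
      have := Real.log_nonneg (show 1 ≤ t by linarith)
      positivity
    have a3 : 0 ≤ σ * H ^ 4 * P := by positivity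
    refine (abs_sub_le _ (partialSum (mangoldtF C) t) _).trans ?_
    rw [abs_sub_comm] at h2
    linarith
  rw [← hσ, ← hHdef]
  refine ⟨?_, ?_⟩
  · have h1 := h C θ β hne hθ hβ0 hβ1 hcont x hx
    rw [← hσ, ← hHdef] at h1
    refine h1.trans (mul_le_mul (mul_le_mul_of_nonneg_right
      (mul_le_mul_of_nonneg_right (by linarith) hs.le) (by positivity)) ?_ (by positivity)
      (by positivity))
    refine mul_le_mul_of_nonneg_left (Real.exp_le_exp.2 (neg_le_neg
      (mul_le_mul_of_nonneg_right (by linarith) (gauge_nonneg L (by linarith))))) (by linarith)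
  have h0 : ∀ k, k ≤ 1 → setLog (someFrobSet K L C) k = 0 := fun k hk =>
    Finset.sum_eq_zero fun v hv => absurd (FA.Ext.two_le_absNorm v) (by
      rw [(Finset.mem_filter.1 hv).2]; omega)
  rw [FA.ChebError.countIn_eq_sum, ← intervalIntegral.integral_const_mul]
  simp only [mul_div]
  refine (count_sub_le_gauge (L := L) (h0 0 zero_le_one) (h0 1 le_rfl)
    (M := fun t => σ * (t - θ * (t ^ β / β))) (m := fun t => σ * (1 - θ * t ^ (β - 1)))
    (B := (A + 10) * σ * H ^ 4) (by positivity) hc.le (by linarith) (fun t ht => ?_) ?_ ?_ hθ'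
    hx).trans (le_of_eq (by ring))
  · refine (((hasDerivAt_id' t).sub (((Real.hasDerivAt_rpow_const
      (Or.inl (by linarith : t ≠ 0))).div_const β).const_mul θ)).const_mul σ).congr_deriv ?_
    field_simp
  · exact continuousOn_const.mul (continuousOn_const.sub (continuousOn_const.mul
      (continuousOn_id.rpow_const fun t ht => Or.inl (ne_of_gt (lt_of_lt_of_le two_pos ht)))))
  · have h3 : (2 : ℝ) ^ β / β ≤ 3 := by
      rw [div_le_iff₀ (by linarith)]
      have := Real.rpow_le_self_of_one_le one_le_two hβ1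
      linarith
    have h5 : |θ * ((2 : ℝ) ^ β / β)| ≤ 3 := by
      rw [abs_mul, abs_of_pos (show 0 < (2 : ℝ) ^ β / β by positivity)]
      exact (mul_le_of_le_one_left (by positivity) hθ).trans h3
    rw [abs_mul, abs_of_pos hs, mul_comm (A + 10) σ, mul_assoc]
    refine mul_le_mul_of_nonneg_left (le_trans ?_ h4) hs.le
    rw [abs_le] at h5 ⊢
    constructor <;> linarith

theorem trivial_empty {K L : Type*} [Field K] [NumberField K] [Field L] [NumberField L] [Algebra K L]
    [IsGalois K L] (x : ℝ) :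
    share (∅ : Set (L ≃ₐ[K] L)) = 0 ∧ partialSum (mangoldtF (∅ : Set (L ≃ₐ[K] L))) x = 0 ∧
      countIn (someFrobSet K L (∅ : Set (L ≃ₐ[K] L))) x = 0 := by
  refine ⟨by simp [share], Finset.sum_eq_zero fun n _ => ?_, ?_⟩
  · simp [mangoldtF, FA.Hecke.fiberSum, FA.ChebError.frobShare]
  · simp [countIn, someFrobSet]

/-- **Chebotarev, uniformly in the extension.** -/
theorem exists_effective : ∃ c A : ℝ, 0 < c ∧ 0 ≤ A ∧
    ∀ {K : Type u} {L : Type v} [Field K] [NumberField K] [Field L] [NumberField L] [Algebra K L]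
      [IsGalois K L] (C : Set (L ≃ₐ[K] L)), (∀ g ∈ C, ∀ x, x * g * x⁻¹ ∈ C) → ∀ E : ℂ → ℂ,
      Differentiable ℂ E → (∀ s : ℂ, 1 < s.re → E s = (s - 1) * dedekindZeta L s) →
      ((∀ β : ℝ, 1 - zfrC / height L 0 ≤ β → E (β : ℂ) ≠ 0) → ∀ x : ℝ, 2 ≤ x →
        |partialSum (mangoldtF C) x - share C * x| ≤
            A * share C * height L 0 ^ 4 * (x * Real.exp (-(c * gauge L x))) ∧
        |(countIn (someFrobSet K L C) x : ℝ) - share C * ∫ t in (2 : ℝ)..x, 1 / Real.log t| ≤
            A * share C * height L 0 ^ 4 * (x * Real.exp (-(c * gauge L x)))) ∧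
      ∀ β : ℝ, 1 - zfrC / height L 0 ≤ β → E (β : ℂ) = 0 →
        ∃ θ : ℝ, |θ| ≤ 1 ∧ ∀ x : ℝ, 2 ≤ x →
          |partialSum (mangoldtF C) x - share C * (x - θ * (x ^ β / β))| ≤
              A * share C * height L 0 ^ 4 * (x * Real.exp (-(c * gauge L x))) ∧
          |(countIn (someFrobSet K L C) x : ℝ) -
              share C * ∫ t in (2 : ℝ)..x, (1 - θ * t ^ (β - 1)) / Real.log t| ≤
              A * share C * height L 0 ^ 4 * (x * Real.exp (-(c * gauge L x))) := by
  obtain ⟨c, A, hc, hA, h⟩ := exists_count_le.{u, v}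
  refine ⟨c, A, hc, hA, fun {K L} _ _ _ _ _ _ C hC E hE hEL => ⟨fun hno x hx => ?_,
    fun β hβ h0 => ?_⟩⟩
  · rcases C.eq_empty_or_nonempty with rfl | hne
    · obtain ⟨e1, e2, e3⟩ := trivial_empty (K := K) (L := L) x
      simp [e1, e2, e3]
    have hcont := continues_plain hE hEL hC hne hno
    have h' := h C hC 0 1 hne (by simp) (by norm_num) le_rfl (by simpa using hcont) x hx
    simpa using h'
  · rcases C.eq_empty_or_nonempty with rfl | hne
    · refine ⟨0, by simp, fun x hx => ?_⟩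
      obtain ⟨e1, e2, e3⟩ := trivial_empty (K := K) (L := L) x
      simp [e1, e2, e3]
    obtain ⟨θ, hθ, hcont⟩ := exists_continues_exceptional hE hEL hC hne hβ h0
    have hβ1 : β ≤ 1 := not_lt.1 fun hlt =>
      FA.DedekindZF.cleared_ne_zero hE hEL (by simpa using hlt.le) h0
    have hβ0 : 3 / 4 ≤ β := by
      have := div_le_self zfrC_pos.le (one_le_height L 0)
      linarith [FA.DedekindPIT.zfrC_le]
    exact ⟨θ, hθ, fun x hx => h C hC θ β hne hθ hβ0 hβ1 hcont x hx⟩

end FA.EffCheb

end
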