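import Fermat.Agent.ArtinFE.Discriminant
import Fermat.Agent.DedekindPrimeIdeals.LogDeriv
import Fermat.Agent.DedekindPrimeIdeals.ZetaBound

/-!
# Growth of the L-series of an abelian extension, uniformly in the extension

For an abelian extension `L/M` and a linear character `ψ` the L-series with its pole removed is
entire, with `log⁺ |H| ≤ A (1 + log |d_L| + n_L log (|t| + 3))` in `-4 ≤ re s ≤ 5`: the functional
equation gives the left edge, and `|d_M| N 𝔣(ψ) ≤ |d_L|` by the conductor-discriminant formula.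
-/

set_option autoImplicit false
set_option linter.style.haveILetI false
set_option linter.unusedSectionVars false

noncomputable section

open NumberField NumberField.InfinitePlace Module Complex MeasureTheory Set Filter Asymptotics
open FA.DedekindZF (height growA)
open FA.HeckeBS (eulerConst)
open FA.ArtinL (artinL artinLog term coef localMean)
open FA.ArtinFE (gamProd linA linP linM linS)
open scoped Real Classical Topology ComplexConjugate

namespace FA.EffCheb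

/-- `Λ₀` is bounded on vertical strips. -/
theorem exists_norm_Λ₀_le (P : WeakFEPair ℂ) (a b : ℝ) :
    ∃ B : ℝ, 0 ≤ B ∧ ∀ s : ℂ, a ≤ s.re → s.re ≤ b → ‖P.Λ₀ s‖ ≤ B := by
  have hint : ∀ x : ℝ, IntegrableOn (fun t : ℝ => t ^ (x - 1) * ‖P.f_modif t‖) (Ioi 0) := fun x => by
    refine (P.isStrongFEPair_toStrongFEPair.hasMellin (x : ℂ)).1.norm.congr ?_
    filter_upwards [ae_restrict_mem measurableSet_Ioi] with t ht
    show ‖(t : ℂ) ^ ((x : ℂ) - 1) • P.f_modif t‖ = _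
    rw [norm_smul, norm_cpow_eq_rpow_re_of_pos ht]
    simp
  refine ⟨∫ t in Ioi (0 : ℝ), (t ^ (a - 1) * ‖P.f_modif t‖ + t ^ (b - 1) * ‖P.f_modif t‖),
    setIntegral_nonneg measurableSet_Ioi fun t ht => ?_, fun s hsa hsb => ?_⟩
  · have : (0 : ℝ) ≤ t := le_of_lt ht
    positivity
  rw [WeakFEPair.Λ₀, mellin]
  refine norm_integral_le_of_norm_le ((hint a).add (hint b)) ?_
  filter_upwards [ae_restrict_mem measurableSet_Ioi] with t ht
  have ht0 : 0 < t := ht
  rw [norm_smul, norm_cpow_eq_rpow_re_of_pos ht0, sub_re, one_re, ← add_mul]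
  refine mul_le_mul_of_nonneg_right ?_ (norm_nonneg _)
  rcases le_total t 1 with h | h
  · exact le_add_of_le_of_nonneg (Real.rpow_le_rpow_of_exponent_ge ht0 h (by linarith))
      (Real.rpow_nonneg ht0.le _)
  · exact le_add_of_nonneg_of_le (Real.rpow_nonneg ht0.le _)
      (Real.rpow_le_rpow_of_exponent_le h (by linarith))

/-- The completed L-series is bounded on vertical strips. -/
theorem exists_completedL_bound {K : Type*} [Field K] [NumberField K] {𝔪 : Ideal (𝓞 K)}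
    {f : Ideal (𝓞 K) →* ℂ} {S : Finset (InfinitePlace K)} (h : FA.HeckeCharFE.HasSigns 𝔪 f S)
    (hp : FA.HeckeCharFE.IsPrimitiveChar 𝔪 f) (a b : ℝ) :
    ∃ B : ℝ, 0 ≤ B ∧ ∀ s : ℂ, a ≤ s.re → s.re ≤ b → ‖h.completedL hp s‖ ≤ B := by
  choose B hB0 hB using fun C : ClassGroup (𝓞 K) =>
    exists_norm_Λ₀_le (h.charPair hp (FA.HeckeFE.repIdeal K C)) (a / 2) (b / 2)
  refine ⟨‖(FA.HeckeFE.jac K : ℂ) / (Units.torsionOrder K : ℂ)‖ * ∑ C, B C,
    mul_nonneg (norm_nonneg _) (Finset.sum_nonneg fun C _ => hB0 C), fun s hsa hsb => ?_⟩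
  rw [FA.HeckeCharFE.HasSigns.completedL, norm_mul]
  refine mul_le_mul_of_nonneg_left ((norm_sum_le _ _).trans (Finset.sum_le_sum fun C _ =>
    hB C _ ?_ ?_)) (norm_nonneg _) <;> simp only [div_ofNat_re] <;> linarith

/-- Phragmén–Lindelöf in `-4 ≤ re s ≤ 5`. -/
theorem posLog_le_of_edges {H : ℂ → ℂ} (hH : Differentiable ℂ H) {A : ℝ} (hA : 1 ≤ A) {n : ℕ}
    (hn : 0 < n)
    (hedge : ∀ z : ℂ, (z.re = -4 ∨ z.re = 5) →
      ‖H z‖ ≤ A ^ (5 : ℕ) * Real.exp (n * eulerConst 5) * (|z.im| + 6) ^ (7 * n))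
    (hcrude : ∃ B : ℝ, 0 ≤ B ∧ ∀ z : ℂ, z.re ∈ Icc (-4) 5 → 1 ≤ |z.im| →
      ‖H z‖ ≤ Real.exp (B * (1 + |z.im|)))
    {z : ℂ} (hz : z.re ∈ Icc (-4) 5) :
    Real.posLog ‖H z‖ ≤ growA * (1 + Real.log A + n * Real.log (|z.im| + 3)) := by
  obtain ⟨M, hMdef⟩ : ∃ M, M = A ^ (5 : ℕ) * Real.exp (n * eulerConst 5) := ⟨_, rfl⟩
  rw [← hMdef] at hedge
  have hE5 : 0 ≤ eulerConst 5 := FA.DedekindZF.eulerConst_nonneg 5
  have hM1 : 1 ≤ M := hMdef ▸ one_le_mul_of_one_le_of_one_le (one_le_pow₀ hA)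
    (Real.one_le_exp (mul_nonneg (Nat.cast_nonneg _) hE5))
  set k := 7 * n with hk
  set h : ℂ → ℂ := fun w => H w / (w + 12) ^ k
  have hne : ∀ w : ℂ, -4 ≤ w.re → w + 12 ≠ 0 := fun w hw h0 => by
    have := congrArg Complex.re h0; simp at this; linarith
  have hh : DiffContOnCl ℂ h (re ⁻¹' Ioo (-4 : ℝ) 5) := by
    refine DifferentiableOn.diffContOnCl fun w hw => ?_
    refine ((hH w).div (((differentiableAt_id).add_const 12).pow k)
      (pow_ne_zero _ (hne w ?_))).differentiableWithinAt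
    have := closure_minimal (preimage_mono Ioo_subset_Icc_self) (isClosed_Icc.preimage continuous_re) hw
    exact this.1
  have hge : ∀ w : ℂ, -4 ≤ w.re → |w.im| + 6 ≤ 2 * ‖w + 12‖ := fun w hw => by
    have h1 := Complex.abs_re_le_norm (w + 12)
    have h2 := Complex.abs_im_le_norm (w + 12)
    simp only [add_re, re_ofNat, add_im, im_ofNat, add_zero] at h1 h2
    have h3 : 8 ≤ |w.re + 12| := le_abs.2 (Or.inl (by linarith))
    linarith
  have hed : ∀ w : ℂ, (w.re = -4 ∨ w.re = 5) → ‖h w‖ ≤ M * 2 ^ k := fun w hw => by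
    have hw' : -4 ≤ w.re := by rcases hw with hw | hw <;> linarith
    rw [norm_div, norm_pow, div_le_iff₀ (pow_pos (norm_pos_iff.2 (hne w hw')) k), mul_assoc,
      ← mul_pow]
    exact (hedge w hw).trans (mul_le_mul_of_nonneg_left
      (pow_le_pow_left₀ (by positivity) (hge w hw') _) (zero_le_one.trans hM1))
  have hbig : ∃ c < π / (5 - -4), ∃ B, h =O[comap (_root_.abs ∘ im) atTop ⊓ 𝓟 (re ⁻¹' Ioo (-4 : ℝ) 5)]
      fun w => Real.exp (B * Real.exp (c * |w.im|)) := by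
    obtain ⟨B, hB, hcr⟩ := hcrude
    refine ⟨1 / 4, by rw [lt_div_iff₀ (by norm_num)]; linarith [Real.pi_gt_three], 4 * B, ?_⟩
    refine IsBigO.of_bound 1 (Filter.eventually_inf_principal.2
      (((Filter.eventually_ge_atTop (1 : ℝ)).comap _).mono fun w hw hre => ?_))
    rw [one_mul, Real.norm_of_nonneg (Real.exp_pos _).le, norm_div, norm_pow]
    refine (div_le_self (norm_nonneg _) (one_le_pow₀ ?_)).trans
      ((hcr w ⟨hre.1.le, hre.2.le⟩ hw).trans (Real.exp_le_exp.2 ?_))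
    · have h1 := Complex.abs_re_le_norm (w + 12)
      simp only [add_re, re_ofNat] at h1
      linarith [le_abs_self (w.re + 12), hre.1]
    · have := Real.add_one_le_exp (1 / 4 * |w.im|)
      rw [mul_comm 4 B, mul_assoc]
      exact mul_le_mul_of_nonneg_left (by linarith) hB
  have hPL := PhragmenLindelof.vertical_strip hh hbig (fun w hw => hed w (Or.inl hw))
    (fun w hw => hed w (Or.inr hw)) hz.1 hz.2
  rw [norm_div, norm_pow, div_le_iff₀ (pow_pos (norm_pos_iff.2 (hne z hz.1)) k), mul_assoc, ← mul_pow]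
    at hPL
  have hX : 1 ≤ 2 * ‖z + 12‖ := le_trans (by linarith [abs_nonneg z.im]) (hge z hz.1)
  have hMX : 1 ≤ M * (2 * ‖z + 12‖) ^ k := one_le_mul_of_one_le_of_one_le hM1 (one_le_pow₀ hX)
  refine (Real.posLog_le_posLog (norm_nonneg _) hPL).trans ?_
  rw [Real.posLog_eq_log (by rwa [abs_of_nonneg (zero_le_one.trans hMX)]), Real.log_mul
    (zero_lt_one.trans_le hM1).ne' (pow_pos (by linarith) k).ne', Real.log_pow, hMdef,
    Real.log_mul (pow_ne_zero _ (by linarith)) (Real.exp_pos _).ne', Real.log_pow, Real.log_exp]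
  set T := Real.log (|z.im| + 3)
  have hT : 1 ≤ T := FA.DedekindZF.one_le_log _
  have hlog : Real.log (2 * ‖z + 12‖) ≤ 4 * T := by
    have h4 : 2 * ‖z + 12‖ ≤ (|z.im| + 3) ^ 4 := by
      have h1 := Complex.norm_le_abs_re_add_abs_im (z + 12)
      simp only [add_re, re_ofNat, add_im, im_ofNat, add_zero] at h1
      have h3 : |z.re + 12| ≤ 17 := abs_le.2 ⟨by linarith [hz.1], by linarith [hz.2]⟩
      nlinarith [abs_nonneg z.im, sq_nonneg (|z.im|), mul_nonneg (abs_nonneg z.im) (sq_nonneg (|z.im| + 6))]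
    refine (Real.log_le_log (by linarith) h4).trans (le_of_eq ?_)
    rw [Real.log_pow]; norm_num [T]
  have hD : 0 ≤ Real.log A := Real.log_nonneg hA
  have hn0 : (0 : ℝ) ≤ n := Nat.cast_nonneg _
  have h1 := mul_le_mul_of_nonneg_left hlog hn0
  have h2 := mul_le_mul_of_nonneg_left hT (mul_nonneg hn0 hE5)
  rw [FA.DedekindZF.growA, hk]
  push_cast
  nlinarith [mul_nonneg hn0 (zero_le_one.trans hT), mul_nonneg hE5 hD]

/-- The reciprocal of a completing factor, entire. -/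
def gamInv (A : ℝ) (a b : ℕ) (s : ℂ) : ℂ :=
  (A : ℂ) ^ (-(s / 2)) * ((Gammaℝ s)⁻¹ ^ a * (Gammaℝ (s + 1))⁻¹ ^ b)

theorem differentiable_gamInv {A : ℝ} (hA : 0 < A) (a b : ℕ) : Differentiable ℂ (gamInv A a b) :=
  (Differentiable.const_cpow (differentiable_id.div_const 2).neg
    (Or.inl (ofReal_ne_zero.2 hA.ne'))).mul ((differentiable_Gammaℝ_inv.pow _).mul
      ((differentiable_Gammaℝ_inv.comp (differentiable_id.add_const 1)).pow _))

theorem gamProd_mul_gamInv {A : ℝ} (hA : 0 < A) (a b : ℕ) {s : ℂ} (hs : 0 < s.re) :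
    gamProd A a b s * gamInv A a b s = 1 := by
  obtain ⟨h1, h2⟩ := FA.ArtinFE.gamma_ne_zero hs
  rw [FA.ArtinFE.gamProd_eq hA, gamInv, zpow_natCast, zpow_natCast, cpow_neg, inv_pow, inv_pow]
  field_simp [ofReal_ne_zero.2 hA.ne']

/-- The left edge of the factor. -/
theorem norm_gamProd_mul_gamInv_le {A : ℝ} (hA : 1 ≤ A) (a b : ℕ) {z : ℂ} (hz : z.re = -4) :
    ‖gamProd A a b (1 - z)‖ * ‖gamInv A a b z‖ ≤ A ^ (5 : ℕ) * (|z.im| + 6) ^ (6 * (a + b)) := by
  have hA0 : 0 < A := zero_lt_one.trans_le hA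
  set t := z.im
  have c1 : ‖Gammaℝ (1 - z)‖ = ‖Gammaℝ (5 + t * I)‖ := by
    rw [← FA.DedekindZF.norm_Gammaℝ_conj]; congr 2; apply Complex.ext <;> simp [hz, t] <;> norm_num
  have c2 : ‖Gammaℝ (1 - z + 1)‖ = ‖Gammaℝ (6 + t * I)‖ := by
    rw [← FA.DedekindZF.norm_Gammaℝ_conj]; congr 2; apply Complex.ext <;> simp [hz, t] <;> norm_num
  have c3 : z = -4 + t * I := by apply Complex.ext <;> simp [hz, t]
  have c4 : z + 1 = -3 + t * I := by rw [c3]; ring
  rw [FA.ArtinFE.gamProd_eq hA0, gamInv]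
  simp only [norm_mul, norm_pow, zpow_natCast, norm_cpow_eq_rpow_re_of_pos hA0]
  rw [c1, c2, c4, show ‖(Gammaℝ z)⁻¹‖ = ‖(Gammaℝ (-4 + t * I))⁻¹‖ by rw [← c3]]
  calc A ^ ((1 - z) / 2).re * (‖Gammaℝ (5 + t * I)‖ ^ a * ‖Gammaℝ (6 + t * I)‖ ^ b) *
        (A ^ (-(z / 2)).re * (‖(Gammaℝ (-4 + t * I))⁻¹‖ ^ a * ‖(Gammaℝ (-3 + t * I))⁻¹‖ ^ b))
      = A ^ ((1 - z) / 2).re * A ^ (-(z / 2)).re *
        ((‖Gammaℝ (5 + t * I)‖ * ‖(Gammaℝ (-4 + t * I))⁻¹‖) ^ a *
          (‖Gammaℝ (6 + t * I)‖ * ‖(Gammaℝ (-3 + t * I))⁻¹‖) ^ b) := by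
        rw [mul_pow, mul_pow]; ring
    _ ≤ A ^ (5 : ℕ) * (((|t| + 6) ^ 6) ^ a * ((|t| + 6) ^ 6) ^ b) := by
        refine mul_le_mul ?_ ?_ (by positivity) (by positivity)
        · rw [← Real.rpow_add hA0, ← Real.rpow_natCast]
          refine Real.rpow_le_rpow_of_exponent_le hA ?_
          simp [hz]; norm_num
        · gcongr
          · exact FA.DedekindZF.ratio_five t
          · exact FA.DedekindZF.ratio_six t
    _ = _ := by rw [← pow_mul, ← pow_mul, ← pow_add, ← mul_add]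

/-- A crude bound for the inverse factor. -/
theorem norm_gamInv_le {A : ℝ} (hA : 1 ≤ A) (a b : ℕ) {z : ℂ} (hz : z.re ∈ Icc (-4) 5)
    (hy : 1 ≤ |z.im|) :
    ‖gamInv A a b z‖ ≤ A ^ (2 : ℕ) * Real.exp ((a + b : ℕ) * (2 * |z.im| + 30)) := by
  have hA0 : 0 < A := zero_lt_one.trans_le hA
  have g0 := FA.DedekindZF.norm_inv_Gammaℝ_le (z := z) (by linarith [hz.1]) (by linarith [hz.2]) hy
  have g1 := FA.DedekindZF.norm_inv_Gammaℝ_le (z := z + 1) (by simp; linarith [hz.1])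
    (by simp; linarith [hz.2]) (by simpa using hy)
  simp only [add_im, one_im, add_zero] at g1
  rw [gamInv, norm_mul, norm_mul, norm_pow, norm_pow, norm_cpow_eq_rpow_re_of_pos hA0]
  refine mul_le_mul ?_ ?_ (by positivity) (by positivity)
  · rw [← Real.rpow_natCast]
    refine Real.rpow_le_rpow_of_exponent_le hA ?_
    simp only [neg_re, div_ofNat_re]; push_cast; linarith [hz.1]
  · rw [Real.exp_nat_mul, pow_add]
    gcongr

section linear

variable {M L : Type*} [Field M] [NumberField M] [Field L] [NumberField L] [Algebra M L]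
  [IsGalois M L]

/-- The coefficients of a linear character are at most `1`. -/
theorem norm_coef_linear_le (ψ : (L ≃ₐ[M] L) →* ℂˣ) (v : IsDedekindDomain.HeightOneSpectrum (𝓞 M))
    (j : ℕ) : ‖coef (fun σ => (ψ σ : ℂ)) v j‖ ≤ 1 := by
  rw [coef, localMean, norm_mul, norm_inv, Complex.norm_natCast]
  refine le_trans (mul_le_mul_of_nonneg_left ((norm_sum_le _ _).trans (le_of_eq
    (Finset.sum_congr rfl fun σ _ => show ‖(ψ σ : ℂ)‖ = 1 from
      Complex.norm_eq_one_of_pow_eq_one (n := orderOf σ) (by rw [← Units.val_pow_eq_pow_val,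
        ← map_pow, pow_orderOf_eq_one, map_one, Units.val_one]) (orderOf_pos σ).ne'))) (by positivity)) ?_
  rw [Finset.sum_const, FA.ArtinL.card_isFrobPow, nsmul_one,
    inv_mul_cancel₀ (Nat.cast_ne_zero.2 Nat.card_pos.ne')]

/-- **A linear L-series is squeezed by the zeta function.** -/
theorem abs_log_norm_artinL_le (ψ : (L ≃ₐ[M] L) →* ℂˣ) {s : ℂ} (hs : 1 < s.re) :
    |Real.log ‖artinL (fun σ => (ψ σ : ℂ)) s‖| ≤ finrank ℚ M * eulerConst s.re := by
  rw [artinL, Complex.norm_exp, Real.log_exp]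
  set g : IsDedekindDomain.HeightOneSpectrum (𝓞 M) × ℕ → ℝ := fun p =>
    (((Ideal.absNorm p.1.asIdeal : ℕ) : ℝ) ^ (-s.re)) ^ (p.2 + 1) / (p.2 + 1)
  have hg : ∀ p, term (fun _ : L ≃ₐ[M] L => (1 : ℂ)) (s.re : ℂ) p = (g p : ℂ) := fun p => by
    simp only [g, term, FA.ArtinL.coef_one, one_mul]
    push_cast
    rw [Complex.ofReal_cpow (Nat.cast_nonneg _)]
    push_cast
    rfl
  have hs' : 1 < (s.re : ℂ).re := by simpa using hs
  have hsg : Summable g := Complex.summable_ofReal.1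
    ((FA.ArtinL.summable_term hs' fun _ : L ≃ₐ[M] L => (1 : ℂ)).congr hg)
  have hle : ∀ p, ‖term (fun σ => (ψ σ : ℂ)) s p‖ ≤ g p := fun p => by
    simp only [g, term, norm_div, norm_mul, norm_pow]
    rw [Complex.norm_natCast_cpow_of_pos (by have := FA.Ext.two_le_absNorm p.1; omega),
      show ‖((p.2 : ℂ) + 1)‖ = (p.2 : ℝ) + 1 by
        rw [← Nat.cast_add_one, Complex.norm_natCast]; push_cast; rfl, neg_re]
    refine div_le_div_of_nonneg_right (mul_le_of_le_one_left (by positivity)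
      (norm_coef_linear_le ψ _ _)) (by positivity)
  refine ((Complex.abs_re_le_norm _).trans (tsum_of_norm_bounded hsg.hasSum hle)).trans ?_
  have h1 := (FA.HeckeBS.norm_dedekindZeta_bounds (K := M) hs').2
  rw [Complex.ofReal_re, ← FA.ArtinL.artinL_one (L := L) hs', artinL, Complex.norm_exp,
    Real.exp_le_exp, artinLog, tsum_congr hg, ← Complex.ofReal_tsum, Complex.ofReal_re] at h1
  exact h1

variable (hcomm : ∀ g h : L ≃ₐ[M] L, g * h = h * g)

include hcomm in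
theorem linA_le_discr (ψ : (L ≃ₐ[M] L) →* ℂˣ) : linA ψ ≤ (discr L).natAbs := by
  haveI := FA.ArtinFE.finite_linear hcomm
  letI := Fintype.ofFinite ((L ≃ₐ[M] L) →* ℂˣ)
  rw [FA.ArtinFE.discr_eq_prod_linA hcomm]
  exact Finset.single_le_prod' (fun χ _ => FA.ArtinFE.linA_pos χ) (Finset.mem_univ ψ)

theorem finrank_le_finrank : finrank ℚ M ≤ finrank ℚ L := by
  rw [← Module.finrank_mul_finrank ℚ M L]
  exact Nat.le_mul_of_pos_right _ Module.finrank_pos

include hcomm in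
theorem size_le_height (ψ : (L ≃ₐ[M] L) →* ℂˣ) (t : ℝ) :
    1 + Real.log (linA ψ : ℝ) + finrank ℚ M * Real.log (|t| + 3) ≤ height L t := by
  rw [FA.DedekindZF.height]
  gcongr
  · exact_mod_cast FA.ArtinFE.linA_pos ψ
  · exact linA_le_discr hcomm ψ
  · exact zero_le_one.trans (FA.DedekindZF.one_le_log t)
  · exact finrank_le_finrank

include hcomm in
theorem height_le_height (t : ℝ) : height M t ≤ height L t := by
  refine le_of_eq_of_le ?_ (size_le_height hcomm (1 : (L ≃ₐ[M] L) →* ℂˣ) t)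
  rw [FA.DedekindZF.height, linA, FA.ArtinFE.linCond_one, Ideal.absNorm_top, mul_one]

/-- The pole of a linear L-series. -/
def poleOrd (ψ : (L ≃ₐ[M] L) →* ℂˣ) : ℕ := if ψ = 1 then 1 else 0

/-- The size of a linear L-series at height `t`: its conductor and its degree. -/
def charSize (ψ : (L ≃ₐ[M] L) →* ℂˣ) (t : ℝ) : ℝ :=
  1 + Real.log (linA ψ : ℝ) + finrank ℚ M * Real.log (|t| + 3)

theorem one_le_charSize (ψ : (L ≃ₐ[M] L) →* ℂˣ) (t : ℝ) : 1 ≤ charSize ψ t := by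
  have h1 : 0 ≤ Real.log (linA ψ : ℝ) := Real.log_natCast_nonneg _
  have h2 : 0 ≤ (finrank ℚ M : ℝ) * Real.log (|t| + 3) :=
    mul_nonneg (Nat.cast_nonneg _) (zero_le_one.trans (FA.DedekindZF.one_le_log t))
  rw [charSize]
  linarith

theorem finrank_le_charSize (ψ : (L ≃ₐ[M] L) →* ℂˣ) (t : ℝ) :
    (finrank ℚ M : ℝ) ≤ charSize ψ t := by
  have h1 : 0 ≤ Real.log (linA ψ : ℝ) := Real.log_natCast_nonneg _
  have h2 := le_mul_of_one_le_right (Nat.cast_nonneg (finrank ℚ M) : (0 : ℝ) ≤ _)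
    (FA.DedekindZF.one_le_log t)
  rw [charSize]
  linarith

theorem charSize_one (t : ℝ) : charSize (1 : (L ≃ₐ[M] L) →* ℂˣ) t = height M t := by
  rw [charSize, FA.DedekindZF.height, linA, FA.ArtinFE.linCond_one, Ideal.absNorm_top, mul_one]

/-- An L-series with its pole removed and bounds by its own size. -/
structure IsClearedFine (ψ : (L ≃ₐ[M] L) →* ℂˣ) (H : ℂ → ℂ) : Prop where
  diff : Differentiable ℂ H
  series : ∀ s : ℂ, 1 < s.re → H s = (s - 1) ^ poleOrd ψ * artinL (fun σ => (ψ σ : ℂ)) s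
  upper : ∀ z : ℂ, z.re ∈ Icc (-4 : ℝ) 5 → ‖H z‖ ≤ Real.exp (growA * charSize ψ z.im)
  lower : ∀ z : ℂ, 1 < z.re → z.re ≤ 3 → -Real.log ‖H z‖ ≤ 11 * charSize ψ z.im / (z.re - 1)

/-- An L-series with its pole removed and its bounds. -/
structure IsCleared (ψ : (L ≃ₐ[M] L) →* ℂˣ) (H : ℂ → ℂ) : Prop where
  diff : Differentiable ℂ H
  series : ∀ s : ℂ, 1 < s.re → H s = (s - 1) ^ poleOrd ψ * artinL (fun σ => (ψ σ : ℂ)) s
  upper : ∀ z : ℂ, z.re ∈ Icc (-4 : ℝ) 5 → ‖H z‖ ≤ Real.exp (growA * height L z.im)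
  lower : ∀ z : ℂ, 1 < z.re → z.re ≤ 3 → -Real.log ‖H z‖ ≤ 11 * height L z.im / (z.re - 1)

/-- **Linear L-series of a Galois extension, each by its own size.** -/
theorem exists_isClearedFine (ψ : (L ≃ₐ[M] L) →* ℂˣ) : ∃ H : ℂ → ℂ, IsClearedFine ψ H := by
  have hA : 0 ≤ growA := by
    have := FA.DedekindZF.eulerConst_nonneg 5
    rw [FA.DedekindZF.growA]; linarith
  by_cases hψ : ψ = 1
  · subst hψ
    obtain ⟨𝔪, f, hf, hnt, hfL⟩ := FA.ArtinRec.exists_hecke (1 : (L ≃ₐ[M] L) →* ℂˣ)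
    obtain ⟨E, hE, -, hE'⟩ := FA.Hecke.exists_heckeG hf
    have hser : ∀ s : ℂ, 1 < s.re →
        E s = (s - 1) * artinL (fun σ => ((1 : (L ≃ₐ[M] L) →* ℂˣ) σ : ℂ)) s := fun s hs => by
      rw [hfL s hs, ← hE' s hs]
    have hEL : ∀ s : ℂ, 1 < s.re → E s = (s - 1) * dedekindZeta M s := fun s hs => by
      rw [hser s hs, ← FA.ArtinL.artinL_one (L := L) hs]
      simp only [MonoidHom.one_apply, Units.val_one]
    refine ⟨E, hE, fun s hs => by rw [poleOrd, if_pos rfl, pow_one, hser s hs], fun z hz => ?_,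
      fun z h1 h3 => ?_⟩
    · rw [charSize_one]
      exact FA.DedekindPIT.norm_cleared_le hE hEL hz
    · rw [charSize_one]
      exact FA.DedekindPIT.neg_log_cleared_le_div hEL h1 h3
  obtain ⟨𝔣, g, hS, hp, hnt, hc, hL⟩ := FA.ArtinFE.exists_hecke_conductor ψ hψ
  have h𝔣 : FA.ArtinFE.linCond ψ = 𝔣 :=
    (FA.ArtinFE.isCond_linCond ψ).unique hc (FA.ArtinFE.linCond_ne_bot ψ) hS.ne_bot
  set a : ℕ := nrRealPlaces M - (linS ψ).card + nrComplexPlaces M with ha
  set b : ℕ := (linS ψ).card + nrComplexPlaces M with hb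
  have hcard : (linS ψ).card ≤ nrRealPlaces M := FA.HeckeCharFE.card_le_nrRealPlaces hS.real
  have hab : a + b = finrank ℚ M := by
    rw [← card_add_two_mul_card_eq_rank M, ha, hb]; omega
  have hP : linP ψ = (a : ℤ) := by rw [FA.ArtinFE.linP, ha]; omega
  have hQ : linM ψ = (b : ℤ) := by rw [FA.ArtinFE.linM, hb]; omega
  obtain ⟨A, hAdef⟩ : ∃ A : ℝ, A = (linA ψ : ℝ) := ⟨_, rfl⟩
  have hA1 : 1 ≤ A := by rw [hAdef]; exact_mod_cast FA.ArtinFE.linA_pos ψ
  have hA0 : 0 < A := zero_lt_one.trans_le hA1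
  have hfac : ∀ s : ℂ, 0 < s.re →
      FA.HeckeCharFE.charFac M 𝔣 (linS ψ) s = gamProd A a b s := fun s hs => by
    rw [hAdef, ← hP, ← hQ, linA, linP, linM, h𝔣, linS]
    exact FA.ArtinFE.charFac_eq_gamProd hS.ne_bot hS.real hs
  set Λ := hS.completedL hp
  set H : ℂ → ℂ := fun s => Λ s * gamInv A a b s
  have hHd : Differentiable ℂ H := (hS.differentiable_completedL hp).mul (differentiable_gamInv hA0 a b)
  have hHs : ∀ s : ℂ, 1 < s.re → H s = artinL (fun σ => (ψ σ : ℂ)) s := fun s hs => by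
    show hS.completedL hp s * gamInv A a b s = _
    have h1 : hS.completedL hp s = FA.HeckeCharFE.charFac M 𝔣 (linS ψ) s * FA.Hecke.heckeL g s :=
      hS.completedL_half hp hnt hs
    rw [h1, hfac s (one_pos.trans hs), ← hL s hs, mul_right_comm,
      gamProd_mul_gamInv hA0 a b (one_pos.trans hs), one_mul]
  have hlog : ∀ s : ℂ, 1 < s.re → ‖H s‖ ≤ Real.exp (finrank ℚ M * eulerConst s.re) := fun s hs => by
    rw [hHs s hs]
    refine (Real.le_exp_log _).trans (Real.exp_le_exp.2 ?_)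
    exact (le_abs_self _).trans (abs_log_norm_artinL_le ψ hs)
  have hedge : ∀ z : ℂ, (z.re = -4 ∨ z.re = 5) →
      ‖H z‖ ≤ A ^ (5 : ℕ) * Real.exp (finrank ℚ M * eulerConst 5) * (|z.im| + 6) ^ (7 * finrank ℚ M) := by
    intro z hz
    have hB : 1 ≤ |z.im| + 6 := by linarith [abs_nonneg z.im]
    rcases hz with hz | hz
    · have hre : 1 < (1 - z).re := by rw [sub_re, one_re, hz]; norm_num
      have hre5 : (1 - z).re = 5 := by rw [sub_re, one_re, hz]; norm_num
      have h1 : Λ z = FA.HeckeCharFE.rootC 𝔣 g (linS ψ) * hS.conj.completedL hp.conj (1 - z) := by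
        have := hS.completedL_one_sub hp hnt (1 - z)
        rwa [sub_sub_cancel] at this
      have h2 : FA.Hecke.heckeL (FA.HeckeCharFE.conjChar g) (1 - z) =
          artinL (fun σ => ((ψ⁻¹) σ : ℂ)) (1 - z) := by
        rw [show (fun σ => ((ψ⁻¹) σ : ℂ)) = fun σ => starRingEnd ℂ (ψ σ : ℂ) from
          funext (FA.ArtinFE.coe_inv_eq_conj ψ), FA.ArtinFE.artinL_conj,
          hL _ (by simpa using hre), ← FA.ArtinFE.heckeL_conjChar]
      have h3 : hS.conj.completedL hp.conj (1 - z) =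
          gamProd A a b (1 - z) * artinL (fun σ => ((ψ⁻¹) σ : ℂ)) (1 - z) := by
        rw [← h2, ← hfac _ (one_pos.trans hre)]
        exact hS.conj.completedL_half hp.conj hnt.conj hre
      have hroot : ‖FA.HeckeCharFE.rootC 𝔣 g (linS ψ)‖ = 1 := hS.norm_rootC hp hnt
      have h4 : ‖artinL (fun σ => ((ψ⁻¹) σ : ℂ)) (1 - z)‖ ≤ Real.exp (finrank ℚ M * eulerConst 5) := by
        refine (Real.le_exp_log _).trans (Real.exp_le_exp.2 ((le_abs_self _).trans ?_))
        have := abs_log_norm_artinL_le ψ⁻¹ hre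
        rwa [hre5] at this
      calc ‖H z‖ = ‖gamProd A a b (1 - z)‖ * ‖gamInv A a b z‖ *
            ‖artinL (fun σ => ((ψ⁻¹) σ : ℂ)) (1 - z)‖ := by
            show ‖Λ z * gamInv A a b z‖ = _
            rw [h1, h3, norm_mul, norm_mul, norm_mul, hroot, one_mul]; ring
        _ ≤ A ^ (5 : ℕ) * (|z.im| + 6) ^ (6 * (a + b)) * Real.exp (finrank ℚ M * eulerConst 5) :=
            mul_le_mul (norm_gamProd_mul_gamInv_le hA1 a b hz) h4 (norm_nonneg _) (by positivity)
        _ ≤ A ^ (5 : ℕ) * (|z.im| + 6) ^ (7 * finrank ℚ M) * Real.exp (finrank ℚ M * eulerConst 5) := by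
            refine mul_le_mul_of_nonneg_right (mul_le_mul_of_nonneg_left
              (pow_le_pow_right₀ hB ?_) (by positivity)) (Real.exp_pos _).le
            omega
        _ = _ := by ring
    · have h := hlog z (by rw [hz]; norm_num)
      rw [hz] at h
      refine h.trans ?_
      rw [mul_comm (A ^ (5 : ℕ)), mul_assoc]
      exact le_mul_of_one_le_right (Real.exp_pos _).le
        (one_le_mul_of_one_le_of_one_le (one_le_pow₀ hA1) (one_le_pow₀ hB))
  have hcrude : ∃ B : ℝ, 0 ≤ B ∧ ∀ z : ℂ, z.re ∈ Icc (-4) 5 → 1 ≤ |z.im| →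
      ‖H z‖ ≤ Real.exp (B * (1 + |z.im|)) := by
    obtain ⟨B, hB0, hB⟩ := exists_completedL_bound hS hp (-4) 5
    have hc0 : 0 ≤ (B + 1) * A ^ (2 : ℕ) := by positivity
    refine ⟨(B + 1) * A ^ (2 : ℕ) + 30 * (a + b : ℕ), by positivity, fun z hz hy => ?_⟩
    have hc1 : (B + 1) * A ^ (2 : ℕ) ≤ Real.exp ((B + 1) * A ^ (2 : ℕ)) := by
      linarith [Real.add_one_le_exp ((B + 1) * A ^ (2 : ℕ))]
    calc ‖H z‖ = ‖Λ z‖ * ‖gamInv A a b z‖ := norm_mul _ _
      _ ≤ (B + 1) * (A ^ (2 : ℕ) * Real.exp ((a + b : ℕ) * (2 * |z.im| + 30))) :=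
          mul_le_mul ((hB z hz.1 hz.2).trans (le_add_of_nonneg_right zero_le_one))
            (norm_gamInv_le hA1 a b hz hy) (norm_nonneg _) (by linarith)
      _ ≤ Real.exp ((B + 1) * A ^ (2 : ℕ)) * Real.exp ((a + b : ℕ) * (2 * |z.im| + 30)) := by
          rw [← mul_assoc]; gcongr
      _ ≤ _ := by
          rw [← Real.exp_add]
          refine Real.exp_le_exp.2 ?_
          nlinarith [mul_nonneg hc0 (abs_nonneg z.im),
            mul_nonneg (Nat.cast_nonneg (a + b) : (0 : ℝ) ≤ _) (abs_nonneg z.im)]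
  refine ⟨H, hHd, fun s hs => by rw [poleOrd, if_neg hψ, pow_zero, one_mul, hHs s hs],
    fun z hz => ?_, fun z h1 h3 => ?_⟩
  · rcases eq_or_ne (H z) 0 with h | h
    · rw [h, norm_zero]; positivity
    rw [← Real.log_le_iff_le_exp (norm_pos_iff.2 h)]
    refine ((le_max_right _ _).trans
      (posLog_le_of_edges hHd hA1 Module.finrank_pos hedge hcrude hz)).trans (le_of_eq ?_)
    rw [hAdef, charSize]
  · have hd : 0 < z.re - 1 := by linarith
    rw [hHs z h1]
    refine ((neg_le_abs _).trans (abs_log_norm_artinL_le ψ h1)).trans ?_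
    refine (mul_le_mul_of_nonneg_left (FA.DedekindPIT.eulerConst_le h1)
      (Nat.cast_nonneg _)).trans ?_
    have hn := finrank_le_charSize ψ z.im
    have e : 2 / (z.re - 1) + 4 ≤ 11 / (z.re - 1) := by
      rw [le_div_iff₀ hd, add_mul, div_mul_cancel₀ _ hd.ne']; linarith
    refine (mul_le_mul hn e (by positivity) (zero_le_one.trans (one_le_charSize ψ _))).trans
      (le_of_eq ?_)
    ring

include hcomm in
/-- **Linear L-series of an abelian extension, uniformly.** -/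
theorem exists_isCleared (ψ : (L ≃ₐ[M] L) →* ℂˣ) : ∃ H : ℂ → ℂ, IsCleared ψ H := by
  obtain ⟨H, h⟩ := exists_isClearedFine ψ
  have hA : 0 ≤ growA := by
    have := FA.DedekindZF.eulerConst_nonneg 5
    rw [FA.DedekindZF.growA]; linarith
  have hle : ∀ t, charSize ψ t ≤ height L t := size_le_height hcomm ψ
  exact ⟨H, h.diff, h.series,
    fun z hz => (h.upper z hz).trans (Real.exp_le_exp.2 (mul_le_mul_of_nonneg_left (hle _) hA)),
    fun z h1 h3 => (h.lower z h1 h3).trans (div_le_div_of_nonneg_right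
      (mul_le_mul_of_nonneg_left (hle _) (by norm_num)) (by linarith))⟩

end linear

end FA.EffCheb

end
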