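import Fermat.Agent.EffectiveChebotarev.Growth

/-!
# The zeros of the L-series of an abelian extension

Their product is the zeta function of the extension, so its zero-free region is theirs, and the
exceptional zero, being simple, is a zero of exactly one of them.
-/

set_option autoImplicit false
set_option linter.style.haveILetI false
set_option linter.unusedSectionVars false

noncomputable section

open NumberField Module Complex Metric Set Filter
open FA.DedekindZF (height growA zfrC zfrC_pos)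
open FA.DedekindPIT (IsGood goodP zfrC_le)
open FA.ArtinL (artinL)
open scoped Real Classical Topology

namespace FA.EffCheb

variable {M L : Type*} [Field M] [NumberField M] [Field L] [NumberField L] [Algebra M L]
  [IsGalois M L] (hcomm : ∀ g h : L ≃ₐ[M] L, g * h = h * g)

theorem growA_nonneg : 0 ≤ growA := by
  have := FA.DedekindZF.eulerConst_nonneg 5
  rw [FA.DedekindZF.growA]; linarith

/-- The L-series of `ψ` without its pole. -/
def clearedL (ψ : (L ≃ₐ[M] L) →* ℂˣ) : ℂ → ℂ := (exists_isCleared hcomm ψ).choose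

theorem isCleared_clearedL (ψ : (L ≃ₐ[M] L) →* ℂˣ) : IsCleared ψ (clearedL hcomm ψ) :=
  (exists_isCleared hcomm ψ).choose_spec

theorem IsCleared.ne_zero {ψ : (L ≃ₐ[M] L) →* ℂˣ} {H : ℂ → ℂ} (h : IsCleared ψ H) {s : ℂ}
    (hs : 1 < s.re) : H s ≠ 0 := by
  rw [h.series s hs]
  exact mul_ne_zero (pow_ne_zero _ (sub_ne_zero.2 fun e => by simp [e] at hs))
    (FA.ArtinL.artinL_ne_zero _ _)

include hcomm in
/-- The zeta function of the extension without its pole. -/
theorem exists_cleared_zeta :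
    ∃ E : ℂ → ℂ, Differentiable ℂ E ∧ ∀ s : ℂ, 1 < s.re → E s = (s - 1) * dedekindZeta L s := by
  haveI := FA.ArtinFE.finite_linear hcomm
  letI := Fintype.ofFinite ((L ≃ₐ[M] L) →* ℂˣ)
  refine ⟨fun z => ∏ ψ, clearedL hcomm ψ z,
    Differentiable.fun_finsetProd fun ψ _ => (isCleared_clearedL hcomm ψ).diff, fun z hz => ?_⟩
  simp only [Finset.prod_congr rfl fun ψ _ => (isCleared_clearedL hcomm ψ).series z hz]
  rw [Finset.prod_mul_distrib, ← FA.ArtinFE.dedekindZeta_eq_prod_linear hcomm hz,
    Finset.prod_pow_eq_pow_sum]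
  simp [poleOrd]

variable {E : ℂ → ℂ} (hE : Differentiable ℂ E)
  (hEL : ∀ s : ℂ, 1 < s.re → E s = (s - 1) * dedekindZeta L s)

include hE hEL in
/-- **The product is the zeta function of the extension.** -/
theorem prod_clearedL [Fintype ((L ≃ₐ[M] L) →* ℂˣ)] (s : ℂ) : ∏ ψ, clearedL hcomm ψ s = E s := by
  refine congrFun (FA.ZetaDivisibility.eq_of_eqOn_halfPlane (f := fun z => ∏ ψ, clearedL hcomm ψ z)
    (Differentiable.fun_finsetProd fun ψ _ => (isCleared_clearedL hcomm ψ).diff) hE fun z hz => ?_) s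
  rw [Finset.prod_congr rfl fun ψ _ => (isCleared_clearedL hcomm ψ).series z hz,
    Finset.prod_mul_distrib, ← FA.ArtinFE.dedekindZeta_eq_prod_linear hcomm hz, hEL z hz,
    Finset.prod_pow_eq_pow_sum]
  simp [poleOrd]

include hE hEL in
theorem clearedL_ne_zero (ψ : (L ≃ₐ[M] L) →* ℂˣ) {z : ℂ} (h : E z ≠ 0) : clearedL hcomm ψ z ≠ 0 := by
  haveI := FA.ArtinFE.finite_linear hcomm
  letI := Fintype.ofFinite ((L ≃ₐ[M] L) →* ℂˣ)
  rw [← prod_clearedL hcomm hE hEL] at h
  exact Finset.prod_ne_zero_iff.1 h ψ (Finset.mem_univ ψ)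

/-- Without a zero in the region. -/
theorem IsCleared.isGood {ψ : (L ≃ₐ[M] L) →* ℂˣ} {H : ℂ → ℂ} (h : IsCleared ψ H)
    (hno : ∀ z : ℂ, 1 - zfrC / height L z.im ≤ z.re → H z ≠ 0) : IsGood L H goodP where
  diff := h.diff
  ne_zero := hno
  upper z hz := (h.upper z ⟨by linarith [hz.1], by linarith [hz.2]⟩).trans
    (Real.exp_le_exp.2 (mul_le_mul_of_nonneg_right
      (by have := growA_nonneg; rw [FA.DedekindPIT.goodP]; linarith)
      (zero_le_one.trans (FA.DedekindZF.one_le_height L _))))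
  lower z h1 h3 := (h.lower z h1 h3).trans (div_le_div_of_nonneg_right
    (mul_le_mul_of_nonneg_right (by have := growA_nonneg; rw [FA.DedekindPIT.goodP]; linarith)
      (zero_le_one.trans (FA.DedekindZF.one_le_height L _))) (by linarith))

/-- With a simple zero divided out. -/
theorem IsCleared.isGood_dslope {ψ : (L ≃ₐ[M] L) →* ℂˣ} {H : ℂ → ℂ} (h : IsCleared ψ H) {β : ℝ}
    (hβ : 1 - zfrC / height L 0 ≤ β) (hβ1 : β ≤ 1) (h0 : H (β : ℂ) = 0) (hder : deriv H (β : ℂ) ≠ 0)
    (huniq : ∀ z : ℂ, H z = 0 → 1 - zfrC / height L z.im ≤ z.re → z = β) :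
    IsGood L (dslope H (β : ℂ)) goodP := by
  have hβ0 : 3 / 4 ≤ β := by
    have := div_le_self zfrC_pos.le (FA.DedekindZF.one_le_height L 0)
    linarith [zfrC_le]
  have hfac : ∀ z, H z = (z - β) * dslope H (β : ℂ) z := fun z => by
    rw [← smul_eq_mul, sub_smul_dslope, h0, sub_zero]
  have hA := FA.DedekindZF.eulerConst_nonneg 5
  have hg : Differentiable ℂ (dslope H (β : ℂ)) :=
    differentiableOn_univ.1 ((differentiableOn_dslope Filter.univ_mem).2 h.diff.differentiableOn)
  refine ⟨hg, fun z hz he => ?_, fun z hz => ?_, fun z h1 h3 => ?_⟩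
  · have hzβ : z = β := huniq z (by rw [hfac, he, mul_zero]) hz
    rw [hzβ, dslope_same] at he
    exact hder he
  · have hH := FA.DedekindZF.one_le_height L z.im
    rcases le_or_gt (1 / 4) ‖z - β‖ with hd | hd
    · have hb := h.upper z ⟨by linarith [hz.1], by linarith [hz.2]⟩
      rw [hfac z, norm_mul] at hb
      have hP : Real.exp (growA * height L z.im) * 4 ≤ Real.exp (goodP * height L z.im) := by
        have h4 : (4 : ℝ) ≤ Real.exp (20 * height L z.im) :=
          le_trans (by linarith) (Real.add_one_le_exp _)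
        refine (mul_le_mul_of_nonneg_left h4 (Real.exp_pos _).le).trans ?_
        rw [← Real.exp_add]
        refine Real.exp_le_exp.2 ?_
        rw [FA.DedekindPIT.goodP, FA.DedekindZF.growA]
        nlinarith
      have := mul_le_mul_of_nonneg_right hd (norm_nonneg (dslope H (β : ℂ) z))
      linarith
    · have hdc : DiffContOnCl ℂ (dslope H (β : ℂ)) (ball (β : ℂ) (1 / 4)) := hg.diffContOnCl
      refine norm_le_of_forall_mem_frontier_norm_le isBounded_ball hdc (fun w hw => ?_) ?_
      · rw [frontier_ball _ (by norm_num), mem_sphere, dist_eq_norm] at hw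
        have hr := abs_le.1 ((abs_re_le_norm (w - β)).trans hw.le)
        have hi := abs_le.1 ((abs_im_le_norm (w - β)).trans hw.le)
        simp only [sub_re, ofReal_re, sub_im, ofReal_im, sub_zero] at hr hi
        have hb := h.upper w ⟨by linarith, by linarith⟩
        rw [hfac w, norm_mul, hw] at hb
        have hh : height L w.im ≤ 2 * height L z.im := FA.DedekindZF.height_le_two_mul L (Or.inl (by
          have := abs_le.2 hi
          linarith [abs_nonneg z.im]))
        have h4 : (4 : ℝ) ≤ Real.exp (20 * height L z.im) :=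
          le_trans (by linarith) (Real.add_one_le_exp _)
        calc ‖dslope H (β : ℂ) w‖ ≤ 4 * Real.exp (growA * height L w.im) := by linarith
          _ ≤ Real.exp (20 * height L z.im) * Real.exp (growA * (2 * height L z.im)) := by
            gcongr; rw [FA.DedekindZF.growA]; linarith
          _ = _ := by rw [← Real.exp_add, FA.DedekindPIT.goodP]; ring_nf
      · rw [closure_ball _ (by norm_num), mem_closedBall, dist_eq_norm]; exact hd.le
  · have hH := FA.DedekindZF.one_le_height L z.im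
    have hb := h.lower z h1 h3
    have hne : H z ≠ 0 := h.ne_zero h1
    rw [hfac z, mul_ne_zero_iff] at hne
    rw [hfac z, norm_mul, Real.log_mul (norm_ne_zero_iff.2 hne.1) (norm_ne_zero_iff.2 hne.2)] at hb
    have hn : ‖z - β‖ ≤ 3 + |z.im| := by
      refine (norm_le_abs_re_add_abs_im _).trans ?_
      simp only [sub_re, ofReal_re, sub_im, ofReal_im, sub_zero]
      rw [abs_of_nonneg (by linarith)]
      linarith
    have hl : Real.log ‖z - β‖ ≤ height L z.im := by
      refine (Real.log_le_log (norm_pos_iff.2 hne.1) hn).trans ?_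
      have h1n : (1 : ℝ) ≤ finrank ℚ L := Nat.one_le_cast.2 finrank_pos
      have hD : 0 ≤ Real.log (((discr L).natAbs : ℕ) : ℝ) :=
        Real.log_nonneg (Nat.one_le_cast.2 (Int.natAbs_pos.2 (discr_ne_zero L)))
      have hlg := le_mul_of_one_le_left (Real.log_nonneg (by linarith [abs_nonneg z.im] :
        (1 : ℝ) ≤ |z.im| + 3)) h1n
      rw [FA.DedekindZF.height, add_comm 3 |z.im|]
      linarith
    have hd : 0 < z.re - 1 := by linarith
    have e : 2 * height L z.im ≤ 4 * height L z.im / (z.re - 1) := by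
      rw [le_div_iff₀ hd]; nlinarith
    have e2 : 11 * height L z.im / (z.re - 1) + 4 * height L z.im / (z.re - 1) ≤
        goodP * height L z.im / (z.re - 1) := by
      rw [← add_div, ← add_mul]
      gcongr
      rw [FA.DedekindPIT.goodP, FA.DedekindZF.growA]; linarith
    linarith

include hE hEL in
/-- Without an exceptional zero every L-series is good. -/
theorem isGood_clearedL (hno : ∀ z : ℂ, 1 - zfrC / height L z.im ≤ z.re → E z ≠ 0)
    (ψ : (L ≃ₐ[M] L) →* ℂˣ) : IsGood L (clearedL hcomm ψ) goodP :=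
  (isCleared_clearedL hcomm ψ).isGood fun z hz => clearedL_ne_zero hcomm hE hEL ψ (hno z hz)

/-- `1` at the character with the exceptional zero. -/
def excInd (β : ℝ) (ψ : (L ≃ₐ[M] L) →* ℂˣ) : ℕ := if clearedL hcomm ψ (β : ℂ) = 0 then 1 else 0

include hE hEL in
/-- **The exceptional zero belongs to one character.** -/
theorem sum_excInd [Fintype ((L ≃ₐ[M] L) →* ℂˣ)] {β : ℝ} (hβ : 1 - zfrC / height L 0 ≤ β)
    (h0 : E (β : ℂ) = 0) :
    ∑ ψ, excInd hcomm β ψ = 1 ∧
      ∀ ψ, clearedL hcomm ψ (β : ℂ) = 0 → deriv (clearedL hcomm ψ) (β : ℂ) ≠ 0 := by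
  obtain ⟨-, hder, -⟩ := FA.DedekindZF.zero_free hE hEL h0 (by simpa using hβ)
  have hd : ∀ ψ, Differentiable ℂ (clearedL hcomm ψ) := fun ψ => (isCleared_clearedL hcomm ψ).diff
  have hderE : ∀ ψ, clearedL hcomm ψ (β : ℂ) = 0 → deriv E (β : ℂ) =
      deriv (clearedL hcomm ψ) (β : ℂ) * ∏ χ ∈ Finset.univ.erase ψ, clearedL hcomm χ (β : ℂ) :=
    fun ψ hψ => by
    have hR : Differentiable ℂ fun z => ∏ χ ∈ Finset.univ.erase ψ, clearedL hcomm χ z :=
      Differentiable.fun_finsetProd fun χ _ => hd χ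
    have he : E = fun z => clearedL hcomm ψ z * ∏ χ ∈ Finset.univ.erase ψ, clearedL hcomm χ z :=
      funext fun z => by
        rw [Finset.mul_prod_erase _ (fun χ => clearedL hcomm χ z) (Finset.mem_univ ψ),
          prod_clearedL hcomm hE hEL]
    rw [he, deriv_fun_mul (hd ψ _) (hR _), hψ, zero_mul, add_zero]
  refine ⟨?_, fun ψ hψ h => hder (by rw [hderE ψ hψ, h, zero_mul])⟩
  have h0' := h0
  rw [← prod_clearedL hcomm hE hEL, Finset.prod_eq_zero_iff] at h0'
  obtain ⟨ψ₀, -, hψ₀⟩ := h0'
  simp only [excInd]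
  rw [Finset.sum_eq_single ψ₀ (fun χ _ hne => if_neg fun hχ => hder ?_)
    (fun hn => absurd (Finset.mem_univ ψ₀) hn)]
  · exact if_pos hψ₀
  · rw [hderE ψ₀ hψ₀, Finset.prod_eq_zero (Finset.mem_erase.2 ⟨hne, Finset.mem_univ χ⟩) hχ, mul_zero]

include hE hEL in
/-- **With the exceptional zero, the L-series are `(s - β)^δ` times good functions.** -/
theorem exists_isGood_exceptional {β : ℝ} (hβ : 1 - zfrC / height L 0 ≤ β) (h0 : E (β : ℂ) = 0)
    (ψ : (L ≃ₐ[M] L) →* ℂˣ) :
    ∃ g : ℂ → ℂ, IsGood L g goodP ∧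
      ∀ z, clearedL hcomm ψ z = (z - β) ^ excInd hcomm β ψ * g z := by
  haveI := FA.ArtinFE.finite_linear hcomm
  letI := Fintype.ofFinite ((L ≃ₐ[M] L) →* ℂˣ)
  obtain ⟨-, -, huniqE⟩ := FA.DedekindZF.zero_free hE hEL h0 (by simpa using hβ)
  have huniq : ∀ z : ℂ, clearedL hcomm ψ z = 0 → 1 - zfrC / height L z.im ≤ z.re → z = (β : ℂ) :=
    fun z hz hreg => huniqE z (by
      by_contra hne
      exact clearedL_ne_zero hcomm hE hEL ψ hne hz) hreg
  by_cases h : clearedL hcomm ψ (β : ℂ) = 0
  · refine ⟨dslope (clearedL hcomm ψ) (β : ℂ), (isCleared_clearedL hcomm ψ).isGood_dslope hβ ?_ h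
      ((sum_excInd hcomm hE hEL hβ h0).2 ψ h) huniq, fun z => ?_⟩
    · exact not_lt.1 fun hlt => (isCleared_clearedL hcomm ψ).ne_zero (by simpa using hlt) h
    · rw [excInd, if_pos h, pow_one, ← smul_eq_mul, sub_smul_dslope, h, sub_zero]
  · refine ⟨clearedL hcomm ψ, (isCleared_clearedL hcomm ψ).isGood fun z hz he => h ?_, fun z => ?_⟩
    · rwa [← huniq z he hz]
    · rw [excInd, if_neg h, pow_zero, one_mul]

end FA.EffCheb

end
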